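import Mathlib
import Fermat.Prelude.Def_ModularCurve_X0
import Fermat.Prelude.Def_ModularCurve_LaurentCoeff
import Fermat.Prelude.Thm_ModularCurve_coeffMap_qExpand

/-!
# S37 (M4), node (KN), part 0: Laurent series lemmas

* `coeffMap_injective_of_injective` : `coeffMap f` is injective for injective `f`;
* `exists_coeffMap_subtype_eq` : a Laurent series all of whose coefficients lie in a subring
  comes from a Laurent series over the subring;
* `pow_char_eq_qExpand_coeffMap_frobenius` : **freshman's dream** in `k((q))`, `char k = ℓ`: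
  `f ^ ℓ = (σ f)(q^ℓ)`, `σ` the coefficientwise Frobenius.
-/

set_option autoImplicit false
set_option linter.style.haveILetI false

noncomputable section

namespace Fermat.Agent.ES

open HahnSeries ModularCurve

section Basic

variable {R S : Type*} [CommRing R] [CommRing S]

theorem coeffMap_injective_of_injective (f : R →+* S) (hf : Function.Injective f) :
    Function.Injective (coeffMap f) := by
  intro x y h
  ext n
  apply hf
  have := congrArg (fun s : LaurentSeries S => s.coeff n) h
  simpa using this

/-- A Laurent series whose coefficients lie in the range of an injective ring hom is in the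
range of `coeffMap`. -/
theorem exists_coeffMap_eq_of_forall_coeff_mem (f : R →+* S)
    (s : LaurentSeries S) (hs : ∀ n, ∃ a : R, f a = s.coeff n) :
    ∃ a : LaurentSeries R, coeffMap f a = s := by
  classical
  choose g hg using hs
  let g' : ℤ → R := fun n => if s.coeff n = 0 then 0 else g n
  have hg' : ∀ n, f (g' n) = s.coeff n := by
    intro n
    by_cases h : s.coeff n = 0
    · simp [g', h]
    · simp [g', h, hg n]
  refine ⟨⟨g', s.isPWO_support.mono fun n hn => ?_⟩, ?_⟩
  · rw [Function.mem_support] at hn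
    rw [HahnSeries.mem_support]
    intro h
    exact hn (by simp [g', h])
  · ext n
    rw [coeffMap_coeff]
    exact hg' n

end Basic

section Frobenius

variable {k : Type*} [CommRing k] (ℓ : ℕ) [hℓ : Fact ℓ.Prime] [CharP k ℓ]

instance charP_laurentSeries : CharP (LaurentSeries k) ℓ := by
  haveI : Nontrivial k := CharP.nontrivial_of_char_ne_one (R := k) hℓ.out.ne_one
  exact charP_of_injective_ringHom (f := (HahnSeries.C : k →+* LaurentSeries k))
    HahnSeries.C_injective ℓ

/-- Coefficients of `p ^ ℓ` for a power series in characteristic `ℓ`. -/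
theorem powerSeries_coeff_pow_char (p : PowerSeries k) (n : ℕ) :
    PowerSeries.coeff n (p ^ ℓ) =
      if ℓ ∣ n then (PowerSeries.coeff (n / ℓ) p) ^ ℓ else 0 := by
  have hℓ0 : ℓ ≠ 0 := hℓ.out.ne_zero
  haveI : ExpChar k ℓ := ExpChar.prime hℓ.out
  have h := MvPowerSeries.map_frobenius_expand (σ := Unit) (R := k) ℓ hℓ0 (f := p)
  have h' : (PowerSeries.expand ℓ hℓ0 p).map (frobenius k ℓ) = p ^ ℓ := h
  rw [← h', PowerSeries.coeff_map, PowerSeries.coeff_expand]
  split_ifs with hd
  · rfl
  · rw [map_zero]

/-- **Freshman's dream** for power series inside Laurent series. -/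
theorem ofPowerSeries_pow_char (p : PowerSeries k) :
    (HahnSeries.ofPowerSeries ℤ k p) ^ ℓ =
      qExpand k ℓ (coeffMap (frobenius k ℓ) (HahnSeries.ofPowerSeries ℤ k p)) := by
  haveI : NeZero ℓ := ⟨hℓ.out.ne_zero⟩
  have hℓpos : (0 : ℤ) < (ℓ : ℤ) := by exact_mod_cast hℓ.out.pos
  rw [← map_pow]
  ext i
  rw [PowerSeries.coeff_coe]
  by_cases hd : (ℓ : ℤ) ∣ i
  · obtain ⟨m, rfl⟩ := hd
    rw [qExpand_coeff_mul, coeffMap_coeff, PowerSeries.coeff_coe]
    by_cases hm : m < 0
    · have : (ℓ : ℤ) * m < 0 := mul_neg_of_pos_of_neg hℓpos hm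
      rw [if_pos this, if_pos hm, map_zero]
    · have hm' : 0 ≤ m := not_lt.mp hm
      have : ¬ (ℓ : ℤ) * m < 0 := not_lt.mpr (mul_nonneg hℓpos.le hm')
      rw [if_neg this, if_neg hm, powerSeries_coeff_pow_char]
      have hnat : ((ℓ : ℤ) * m).natAbs = ℓ * m.natAbs := by
        rw [Int.natAbs_mul, Int.natAbs_natCast]
      rw [hnat, if_pos (dvd_mul_right ℓ _), Nat.mul_div_cancel_left _ hℓ.out.pos]
      rfl
  · rw [qExpand_coeff_of_not_dvd ℓ _ hd]
    split_ifs with hi
    · rfl
    · rw [powerSeries_coeff_pow_char, if_neg]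
      intro hdn
      apply hd
      have := Int.natCast_dvd_natCast.mpr hdn
      rwa [Int.natCast_natAbs, dvd_abs] at this

/-- **Freshman's dream** in `k((q))`, `char k = ℓ`: `f ^ ℓ = (σ f)(q ^ ℓ)` with `σ` the
coefficientwise Frobenius. -/
theorem pow_char_eq_qExpand_coeffMap_frobenius (f : LaurentSeries k) :
    f ^ ℓ = qExpand k ℓ (coeffMap (frobenius k ℓ) f) := by
  haveI : NeZero ℓ := ⟨hℓ.out.ne_zero⟩
  conv_lhs => rw [← LaurentSeries.single_order_mul_powerSeriesPart f]
  conv_rhs => rw [← LaurentSeries.single_order_mul_powerSeriesPart f]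
  rw [mul_pow, map_mul, map_mul, ofPowerSeries_pow_char, coeffMap_single, qExpand_single,
    HahnSeries.single_pow]
  simp [frobenius_def]

end Frobenius

end Fermat.Agent.ES
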