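import Fermat.Agent.ES.ProductFormulaGen
import Fermat.Agent.Jac.DictC.ModDeg

/-!
# Program J, node (J4-PF): the product formula for the Hecke norm over `ℂ`

Instantiation of `ES/ProductFormulaGen.lean` at `L = ℂ`:

* `Gen.hasModEqData_complex`, `Gen.hasModEqData_Kb` : modular equation data over `ℂ` and `ℚ̄`;
* `Gen.finrankAlong_alpha_of_isSepVar` : the degree of `α` from `[FL L M : L(j)] = ψ(M)`;
* `Gen.finiteAlong_heckeAlphaC`, `Gen.finrankAlong_heckeAlphaC` : `α` over `ℂ` is finite of degree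
  `ℓ + 1` (from `Jac.DictC.jBar_isSepVar`);
* `Gen.productFormula_complex` : **(PF) over `ℂ`**, unconditional, for `ℓ ∤ N`:
  `(Nm_{F'/αF} (β y))(q^ℓ) = y(q^{ℓ²}) · ∏_{b<ℓ} y(ζ^b q)` in `ℂ((q))`.
-/

set_option autoImplicit false
set_option linter.unusedSectionVars false
set_option linter.style.haveILetI false

noncomputable section

namespace Fermat.Agent.ES.Gen

open Polynomial HahnSeries ModularCurve AlgebraicCurve Fermat.Agent.Igusa Fermat.Agent.X0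
  Fermat.Agent.Hecke Fermat.Agent.ES IntermediateField

/-! ### Modular equation data -/

theorem hasModEqData_complex : HasModEqData ℂ := by
  intro p hp
  haveI : Fact p.Prime := ⟨hp⟩
  obtain ⟨d⟩ := nonempty_modEqData p (A := (⊤ : Subring ℂ)) (Subring.mem_top _)
    (Subring.mem_top _)
  refine ⟨_, _, ?_, ⟨d.map (⊤ : Subring ℂ).subtype⟩⟩
  exact isPrimitiveRoot_unitsMap_of_prime (⊤ : Subring ℂ).subtype hp
    (Nat.cast_ne_zero.mpr hp.ne_zero) (isPrimitiveRoot_zetaA p _)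

theorem hasModEqData_Kb : HasModEqData Kb := exists_modEqData_Kb

/-! ### The degree of `α` -/

section Degree

variable {L : Type*} [Field L] [Algebra ℚ L] {N ℓ : ℕ} [NeZero N] [NeZero ℓ]

/-- `α` is finite as soon as `FL L (Nℓ)` is finite over `L(x')` and `FL L N` contains a
transcendental element. -/
theorem finiteAlong_alpha_of_transcendental (x' : FL L (N * ℓ))
    [FiniteDimensional L⟮x'⟯ (FL L (N * ℓ))] {x : FL L N} (hx : Transcendental L x) :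
    FiniteAlong L (heckeAlphaBar L N ℓ) :=
  finiteAlong_of_transcendental _ x' hx

/-- The degree of `α` from `[FL L M : L(j)] = ψ(M)`, `M = N, Nℓ`. -/
theorem finrankAlong_alpha_of_isSepVar (hℓ : ℓ.Prime) (hℓN : ¬ ℓ ∣ N)
    {x : FL L N} {x' : FL L (N * ℓ)} (hxx' : heckeAlphaBar L N ℓ x = x')
    (h1 : IsSepVar L x (dedekindPsi N)) (h2 : IsSepVar L x' (dedekindPsi (N * ℓ))) :
    finrankAlong L (heckeAlphaBar L N ℓ) = ℓ + 1 := by
  have h := Deg.finrank_mul_finrankAlong (heckeAlphaBar L N ℓ) x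
  rw [hxx', h1.finrank_eq, h2.finrank_eq, Deg.dedekindPsi_mul_prime N hℓ hℓN] at h
  exact Nat.eq_of_mul_eq_mul_left (Deg.dedekindPsi_pos N) h

end Degree

/-! ### `L = ℂ` -/

section Complex

open Fermat.Agent.Jac.DictC

variable {N ℓ : ℕ} [NeZero N] [NeZero ℓ]

theorem heckeAlphaC_jBar :
    heckeAlphaBar ℂ N ℓ (Fermat.Agent.Jac.DictC.jBar N) = Fermat.Agent.Jac.DictC.jBar (N * ℓ) :=
  Subtype.ext (by rw [coe_heckeAlphaBar]; rfl)

theorem finiteAlong_heckeAlphaC : FiniteAlong ℂ (heckeAlphaBar ℂ N ℓ) :=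
  haveI : FiniteDimensional ℂ⟮Fermat.Agent.Jac.DictC.jBar (N * ℓ)⟯ (Fc (N * ℓ)) :=
    (Fermat.Agent.Jac.DictC.jBar_isSepVar (N * ℓ)).finite
  finiteAlong_of_transcendental _ (Fermat.Agent.Jac.DictC.jBar (N * ℓ))
    (Fermat.Agent.Jac.DictC.jBar_transcendental N)

theorem finiteAlong_heckeBetaC : FiniteAlong ℂ (heckeBetaBar ℂ N ℓ) :=
  haveI : FiniteDimensional ℂ⟮Fermat.Agent.Jac.DictC.jBar (N * ℓ)⟯ (Fc (N * ℓ)) :=
    (Fermat.Agent.Jac.DictC.jBar_isSepVar (N * ℓ)).finite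
  finiteAlong_of_transcendental _ (Fermat.Agent.Jac.DictC.jBar (N * ℓ))
    (Fermat.Agent.Jac.DictC.jBar_transcendental N)

theorem finrankAlong_heckeAlphaC (hℓ : ℓ.Prime) (hℓN : ¬ ℓ ∣ N) :
    finrankAlong ℂ (heckeAlphaBar ℂ N ℓ) = ℓ + 1 :=
  finrankAlong_alpha_of_isSepVar hℓ hℓN heckeAlphaC_jBar
    (Fermat.Agent.Jac.DictC.jBar_isSepVar N) (Fermat.Agent.Jac.DictC.jBar_isSepVar (N * ℓ))

/-- **(PF) over `ℂ`**: for a prime `ℓ ∤ N`, a primitive `ℓ`-th root of unity `ζ` and `y ∈ Fc N`,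
`(Nm_{F'/αF} (β y))(q^ℓ) = y(q^{ℓ²}) · ∏_{b<ℓ} y(ζ^b q)` in `ℂ((q))`. -/
theorem productFormula_complex (hℓ : ℓ.Prime) (hℓN : ¬ ℓ ∣ N)
    {ζ : ℂˣ} (hζ : IsPrimitiveRoot ζ ℓ) (y : Fc N) :
    qExpand ℂ ℓ ((normAlphaGen ℂ N ℓ (heckeBetaBar ℂ N ℓ y) : Fc N) : LaurentSeries ℂ) =
      qExpand ℂ (ℓ * ℓ) (y : LaurentSeries ℂ) *
        ∏ b ∈ Finset.range ℓ, scale (ζ ^ b) (y : LaurentSeries ℂ) :=
  productFormula hℓ hℓN hasModEqData_complex finiteAlong_heckeAlphaC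
    (finrankAlong_heckeAlphaC hℓ hℓN) hζ y

end Complex

end Fermat.Agent.ES.Gen
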