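import Mathlib
import Fermat.Prelude.Def_ModularCurve_ArithmeticGalois
import Fermat.Prelude.Def_ModularCurve_X0ModL

/-!
# S37 (M4), node ES-P, part II(a): generators of `F̄_N = L·F_N ⊂ L((q))`

`F̄_N = laurentBaseChange L (modularFunctionFieldFull N)` is generated over `L` by the series
`j(q^d) = jqNModC L d`, `d ∣ N`:

* `jGen N d hd : F̄_N`, the element `j(q^d)`;
* `mem_of_mem_laurentBaseChange`: a subfield of `L((q))` containing the constants and the `j(q^d)`,
  `d ∣ N`, contains `F̄_N`;
* `ringHom_ext_jGen`: two ring homs out of `F̄_N` into a field that agree on constants and on the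
  `j(q^d)` are equal.
-/

set_option autoImplicit false
set_option linter.unusedSectionVars false

noncomputable section

namespace Fermat.Agent.ES

open ModularCurve IntermediateField

variable {L : Type*} [Field L] [Algebra ℚ L] (N : ℕ) [NeZero N]

theorem coeffEmb_qExpand_jq (d : ℕ) [NeZero d] :
    coeffEmb L (qExpand ℚ d jq) = jqNModC L d := by
  rw [coeffEmb, ← jqModC_rat, ← jqNModC, coeffMap_jqNModC]

omit [NeZero N] in
theorem jqNModC_mem {d : ℕ} [NeZero d] (hd : d ∣ N) :
    jqNModC L d ∈ laurentBaseChange L (modularFunctionFieldFull N) := by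
  rw [← coeffEmb_qExpand_jq]
  exact coeffEmb_mem_laurentBaseChange L (jqd_mem_full N hd)

/-- `j(q^d)`, `d ∣ N`, as an element of `F̄_N`. -/
def jGen (d : ℕ) [NeZero d] (hd : d ∣ N) : laurentBaseChange L (modularFunctionFieldFull N) :=
  ⟨jqNModC L d, jqNModC_mem N hd⟩

omit [NeZero N] in
@[simp] theorem coe_jGen (d : ℕ) [NeZero d] (hd : d ∣ N) :
    ((jGen (L := L) N d hd : laurentBaseChange L (modularFunctionFieldFull N)) : LaurentSeries L) =
      jqNModC L d := rfl

omit [NeZero N] in
/-- A subfield of `L((q))` containing the constants and the `j(q^d)`, `d ∣ N`, contains `F̄_N`. -/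
theorem mem_of_mem_laurentBaseChange (T : Subfield (LaurentSeries L))
    (hT : ∀ a : L, algebraMap L (LaurentSeries L) a ∈ T)
    (hj : ∀ (d : ℕ) [NeZero d], d ∣ N → jqNModC L d ∈ T) {x : LaurentSeries L}
    (hx : x ∈ laurentBaseChange L (modularFunctionFieldFull N)) : x ∈ T := by
  rw [mem_laurentBaseChange_iff] at hx
  induction hx using Subfield.closure_induction with
  | mem y hy =>
    rcases hy with ⟨a, rfl⟩ | ⟨z, hz, rfl⟩
    · exact hT a
    · -- `z ∈ F_N = ℚ(j(q^d))`
      let T' : Subfield (LaurentSeries ℚ) := T.comap (coeffEmb L)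
      have hT' : ∀ r : ℚ, algebraMap ℚ (LaurentSeries ℚ) r ∈ T' := by
        intro r
        show coeffEmb L (algebraMap ℚ (LaurentSeries ℚ) r) ∈ T
        have : coeffEmb L (algebraMap ℚ (LaurentSeries ℚ) r) =
            algebraMap L (LaurentSeries L) (algebraMap ℚ L r) := by
          rw [coeffEmb, algebraMap_laurentSeries_eq_single, coeffMap_single,
            algebraMap_laurentSeries_eq_single]
        rw [this]
        exact hT _
      have hle : modularFunctionFieldFull N ≤ T'.toIntermediateField hT' := by
        rw [modularFunctionFieldFull, IntermediateField.adjoin_le_iff]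
        rintro _ ⟨d, hd, hdN, rfl⟩
        show coeffEmb L (qExpand ℚ d jq) ∈ T
        rw [coeffEmb_qExpand_jq]
        exact hj d hdN
      exact hle hz
  | one => exact one_mem T
  | add x y _ _ hx hy => exact add_mem hx hy
  | neg x _ hx => exact neg_mem hx
  | inv x _ hx => exact inv_mem hx
  | mul x y _ _ hx hy => exact mul_mem hx hy

omit [NeZero N] in
/-- Two ring homs out of `F̄_N` into a field which agree on the constants and on the `j(q^d)`,
`d ∣ N`, are equal. -/
theorem ringHom_ext_jGen {E : Type*} [Field E]
    (f g : laurentBaseChange L (modularFunctionFieldFull N) →+* E)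
    (hK : ∀ a : L, f (algebraMap L _ a) = g (algebraMap L _ a))
    (hj : ∀ (d : ℕ) [NeZero d] (hd : d ∣ N), f (jGen N d hd) = g (jGen N d hd)) : f = g := by
  let T : Subfield (LaurentSeries L) :=
    (RingHom.eqLocusField f g).map (laurentBaseChange L (modularFunctionFieldFull N)).val.toRingHom
  have hmem : ∀ x : laurentBaseChange L (modularFunctionFieldFull N),
      (x : LaurentSeries L) ∈ T → f x = g x := by
    rintro x ⟨y, hy, hyx⟩
    have : y = x := Subtype.ext hyx
    rw [← this]
    exact hy
  ext x
  apply hmem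
  refine mem_of_mem_laurentBaseChange N T ?_ ?_ x.2
  · intro a
    exact ⟨algebraMap L (laurentBaseChange L (modularFunctionFieldFull N)) a, hK a, rfl⟩
  · intro d _ hd
    exact ⟨jGen N d hd, hj d hd, rfl⟩

end Fermat.Agent.ES
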