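import Fermat.Agent.Igusa.ModEqExist
import Fermat.Agent.Igusa.CoeffRing
import Fermat.Agent.X0.Defs

/-!
# S37 (M4), node ES-P: modular equation data over `ℚ̄`

`Igusa/ModEqExist.lean` produces modular equation data over every subring of `ℂ` containing
`ζ_p = exp(2πi/p)` and `1/p`; the subring of algebraic numbers of `ℂ` is such a ring and is
isomorphic to `Kb = AlgebraicClosure ℚ`.

* `exists_modEqData_Kb` : for every prime `p`, data `ModEqData Kb p ζ pinv` with `ζ` a primitive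
  `p`-th root of unity;
* `prod_pow_primitiveRoot_eq` : `∏_{b<n} f (ζ'^b) = ∏_{b<n} f (ζ^b)` for two primitive `n`-th roots
  of unity.
-/

set_option autoImplicit false

noncomputable section

namespace Fermat.Agent.ES

open Fermat.Agent.Igusa Fermat.Agent.X0 Polynomial

/-- The subring of algebraic numbers of `ℂ`. -/
def algNumSubring : Subring ℂ := (algebraicClosure ℚ ℂ).toSubring

theorem mem_algNumSubring_iff {z : ℂ} : z ∈ algNumSubring ↔ IsAlgebraic ℚ z := by
  change z ∈ algebraicClosure ℚ ℂ ↔ _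
  rw [mem_algebraicClosure_iff']
  exact isAlgebraic_iff_isIntegral.symm

theorem zetaC_mem_algNumSubring (p : ℕ) [hp : Fact p.Prime] :
    ((zetaC p : ℂˣ) : ℂ) ∈ algNumSubring := by
  rw [mem_algNumSubring_iff]
  refine IsIntegral.isAlgebraic (IsIntegral.of_pow hp.out.pos ?_)
  rw [← Units.val_pow_eq_pow_val, zetaC_pow_self, Units.val_one]
  exact isIntegral_one

theorem natCast_inv_mem_algNumSubring (p : ℕ) : ((p : ℂ))⁻¹ ∈ algNumSubring := by
  rw [mem_algNumSubring_iff]
  exact (isAlgebraic_natCast p).inv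

/-- The embedding of the algebraic numbers of `ℂ` into `Kb`. -/
def algNumToKb : algNumSubring →+* Kb :=
  letI : Algebra ℚ (algebraicClosure ℚ ℂ) := IntermediateField.algebra' (algebraicClosure ℚ ℂ)
  haveI : Algebra.IsAlgebraic ℚ (algebraicClosure ℚ ℂ) := algebraicClosure.isAlgebraic ℚ ℂ
  ((IsAlgClosed.lift : algebraicClosure ℚ ℂ →ₐ[ℚ] Kb) : algebraicClosure ℚ ℂ →+* Kb)

/-- **Modular equation data over `ℚ̄`** for every prime `p`. -/
theorem exists_modEqData_Kb (p : ℕ) (hp : p.Prime) :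
    ∃ (ζ : Kbˣ) (pinv : Kb), IsPrimitiveRoot ζ p ∧
      Nonempty (@ModEqData Kb _ p ⟨hp.ne_zero⟩ ζ pinv) := by
  have : Fact p.Prime := ⟨hp⟩
  obtain ⟨d⟩ := nonempty_modEqData p (A := algNumSubring) (zetaC_mem_algNumSubring p)
    (natCast_inv_mem_algNumSubring p)
  refine ⟨_, _, ?_, ⟨d.map algNumToKb⟩⟩
  exact isPrimitiveRoot_unitsMap_of_prime algNumToKb hp (Nat.cast_ne_zero.mpr hp.ne_zero)
    (isPrimitiveRoot_zetaA p _)

/-- Products over the powers of a primitive root do not depend on the primitive root. -/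
theorem prod_pow_primitiveRoot_eq {M R : Type*} [CommMonoid M] [CommRing R] [IsDomain R] {n : ℕ}
    {ζ ζ' : Rˣ} (hζ : IsPrimitiveRoot ζ n) (hζ' : IsPrimitiveRoot ζ' n) (f : Rˣ → M) :
    ∏ b ∈ Finset.range n, f (ζ' ^ b) = ∏ b ∈ Finset.range n, f (ζ ^ b) := by
  classical
  rcases Nat.eq_zero_or_pos n with rfl | hn
  · simp
  have : NeZero n := ⟨hn.ne'⟩
  have hinj : ∀ {ξ : Rˣ}, IsPrimitiveRoot ξ n →
      Set.InjOn (fun b : ℕ => ξ ^ b) (Finset.range n : Set ℕ) := by
    intro ξ hξ a ha b hb hab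
    exact hξ.pow_inj (Finset.mem_coe.mp ha |> Finset.mem_range.mp)
      (Finset.mem_coe.mp hb |> Finset.mem_range.mp) hab
  have himg : (Finset.range n).image (fun b : ℕ => ζ' ^ b) =
      (Finset.range n).image (fun b : ℕ => ζ ^ b) := by
    apply Finset.eq_of_subset_of_card_le
    · intro x hx
      obtain ⟨b, _, rfl⟩ := Finset.mem_image.mp hx
      obtain ⟨i, _, hi⟩ := hζ.eq_pow_of_mem_rootsOfUnity
        ((mem_rootsOfUnity _ _).mpr hζ'.pow_eq_one)
      refine Finset.mem_image.mpr ⟨(i * b) % n, Finset.mem_range.mpr (Nat.mod_lt _ hn), ?_⟩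
      rw [← hi, ← pow_mul, ← pow_eq_pow_mod _ hζ.pow_eq_one]
    · rw [Finset.card_image_of_injOn (hinj hζ), Finset.card_image_of_injOn (hinj hζ')]
  rw [← Finset.prod_image (f := f) (g := fun b : ℕ => ζ' ^ b) (hinj hζ'),
    ← Finset.prod_image (f := f) (g := fun b : ℕ => ζ ^ b) (hinj hζ), himg]

end Fermat.Agent.ES
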