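import Fermat.Agent.Hecke.HeckeInputs
import Fermat.Agent.Igusa.Subst
import Fermat.Agent.ES.LaurentFrob

/-!
# S37 (M4), nodes (ES-D) and (KN): the Hecke correspondence on principal divisors is the norm,
and the Kronecker norm congruence (hypothesis form on the product formula)

Notation: `F = Fb N`, `F' = Fb (N * ℓ)`, `α = heckeAlphaBar` (inclusion), `β = heckeBetaBar`
(`y(q) ↦ y(q^ℓ)`), `T_ℓ = heckeDivBar = α_* ∘ β^*`.

* `normAlpha N ℓ z` : the norm `Nm_{F'/αF} z ∈ F`;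
* `heckeDivBar_principal` : **(ES-D)** `T_ℓ (div y) = div (Nm (β y))`;
* `ProductFormula N ℓ` : **(PF)** (a `Prop`, proved elsewhere):
  `(Nm (β y))(q^ℓ) = y(q^{ℓ²}) · ∏_{b<ℓ} y(ζ^b q)` in `ℚ̄((q))`;
* `normCongruence` : **(KN)** given (PF): if `y ∈ F` has coefficients in the valuation ring `A`
  (residue characteristic `ℓ`), say `y = ι y0`, then `Nm (β y) = ι Y` with
  `Y mod 𝔪 = (y0 mod 𝔪)(q^ℓ) · σ(y0 mod 𝔪)`, `σ` the coefficientwise Frobenius.
-/

set_option autoImplicit false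
set_option linter.style.haveILetI false
set_option linter.unusedSectionVars false

noncomputable section

namespace Fermat.Agent.ES

open AlgebraicCurve ModularCurve HahnSeries Fermat.Agent.X0 Fermat.Agent.Hecke Fermat.Agent.Igusa

variable (N ℓ : ℕ) [NeZero N] [NeZero ℓ]

/-- The norm `Nm_{F_{Nℓ}/α(F_N)}`. -/
def normAlpha (z : Fb (N * ℓ)) : Fb N :=
  letI := algebraAlong (heckeAlphaBar Kb N ℓ)
  haveI : Module.Finite (Fb N) (Fb (N * ℓ)) := finiteAlong_heckeAlphaBar N ℓ
  Algebra.norm (Fb N) z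

theorem normAlpha_def (z : Fb (N * ℓ)) :
    normAlpha N ℓ z = (letI := algebraAlong (heckeAlphaBar Kb N ℓ); Algebra.norm (Fb N) z) := rfl

theorem normAlpha_mul (z w : Fb (N * ℓ)) :
    normAlpha N ℓ (z * w) = normAlpha N ℓ z * normAlpha N ℓ w := by
  letI := algebraAlong (heckeAlphaBar Kb N ℓ)
  exact map_mul (Algebra.norm (Fb N)) z w

theorem normAlpha_one : normAlpha N ℓ 1 = 1 := by
  letI := algebraAlong (heckeAlphaBar Kb N ℓ)
  exact map_one (Algebra.norm (Fb N))

theorem normAlpha_ne_zero {z : Fb (N * ℓ)} (hz : z ≠ 0) : normAlpha N ℓ z ≠ 0 := by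
  letI := algebraAlong (heckeAlphaBar Kb N ℓ)
  haveI : Module.Finite (Fb N) (Fb (N * ℓ)) := finiteAlong_heckeAlphaBar N ℓ
  exact Algebra.norm_ne_zero_iff.mpr hz

theorem normAlpha_inv {z : Fb (N * ℓ)} (hz : z ≠ 0) :
    normAlpha N ℓ z⁻¹ = (normAlpha N ℓ z)⁻¹ := by
  refine eq_inv_of_mul_eq_one_left ?_
  rw [← normAlpha_mul, inv_mul_cancel₀ hz, normAlpha_one]

/-- **(ES-D)** On principal divisors the Hecke correspondence is the norm:
`T_ℓ (div y) = div (Nm_{F'/αF} (β y))`. -/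
theorem heckeDivBar_principal (y : Fb N) (hy : y ≠ 0) (D : Divisor Kb (Fb N))
    (hD : ∀ P, D P = P.ord y) (P : Place Kb (Fb N)) :
    heckeDivBar (heckeAlphaBarIntegral N ℓ) (heckeBetaBarIntegral N ℓ) D P =
      P.ord (normAlpha N ℓ (heckeBetaBar Kb N ℓ y)) := by
  have hinj : Function.Injective (heckeBetaBar Kb N ℓ) :=
    (heckeBetaBar Kb N ℓ).toRingHom.injective
  have hβy : heckeBetaBar Kb N ℓ y ≠ 0 := fun h => hy (hinj (h.trans (map_zero _).symm))
  -- the pullback along β is the divisor of β y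
  have hpull : ∀ w : Place Kb (Fb (N * ℓ)),
      Divisor.pullbackAlong (heckeBetaBar Kb N ℓ) (heckeBetaBarIntegral N ℓ) D w =
        w.ord (heckeBetaBar Kb N ℓ y) := by
    intro w
    letI := algebraAlong (heckeBetaBar Kb N ℓ)
    haveI := isScalarTower_along (heckeBetaBar Kb N ℓ)
    haveI := isIntegral_along (heckeBetaBar Kb N ℓ) (heckeBetaBarIntegral N ℓ)
    exact Divisor.pullback_apply_eq_ord hD w
  -- the norm formula along α
  have hN := normFormulaAlong_alpha N ℓ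
  unfold heckeDivBar
  rw [Divisor.correspondence_apply]
  exact hN (heckeBetaBar Kb N ℓ y) hβy _ hpull P

/-- **(PF)** The product formula for the norm of `β y`, as an identity in `ℚ̄((q))`:
`(Nm (β y))(q^ℓ) = y(q^{ℓ²}) · ∏_{b<ℓ} y(ζ^b q)`. -/
def ProductFormula : Prop :=
  ∀ ζ : Kbˣ, IsPrimitiveRoot ζ ℓ → ∀ y : Fb N,
    qExpand Kb ℓ ((normAlpha N ℓ (heckeBetaBar Kb N ℓ y) : Fb N) : LaurentSeries Kb) =
      qExpand Kb (ℓ * ℓ) (y : LaurentSeries Kb) *
        ∏ b ∈ Finset.range ℓ, scale (ζ ^ b) (y : LaurentSeries Kb)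

/-! ### The norm congruence (KN) -/

section KN

variable {N ℓ}
variable [hℓ : Fact ℓ.Prime] (A : ValuationSubring Kb)

/-- Roots of unity lie in every valuation subring. -/
theorem mem_valuationSubring_of_pow_eq_one {L : Type*} [Field L] (B : ValuationSubring L)
    {ζ : L} {n : ℕ} (hn : n ≠ 0) (hζ : ζ ^ n = 1) : ζ ∈ B := by
  rcases B.mem_or_inv_mem ζ with h | h
  · exact h
  · have hζ0 : ζ ≠ 0 := by
      rintro rfl
      rw [zero_pow hn] at hζ
      exact zero_ne_one hζ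
    have : ζ = ζ⁻¹ ^ (n - 1) := by
      rw [inv_pow]
      refine eq_inv_of_mul_eq_one_left ?_
      rw [← pow_succ', Nat.sub_add_cancel (Nat.pos_of_ne_zero hn), hζ]
    rw [this]
    exact pow_mem h _

/-- A root of unity of `L` as a unit of a valuation subring. -/
def unitOfPowEqOne {L : Type*} [Field L] (B : ValuationSubring L)
    {ζ : L} {n : ℕ} (hn : n ≠ 0) (hζ : ζ ^ n = 1) : Bˣ where
  val := ⟨ζ, mem_valuationSubring_of_pow_eq_one B hn hζ⟩
  inv := ⟨ζ ^ (n - 1), pow_mem (mem_valuationSubring_of_pow_eq_one B hn hζ) _⟩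
  val_inv := Subtype.ext (by
    show ζ * ζ ^ (n - 1) = 1
    rw [← pow_succ', Nat.sub_add_cancel (Nat.pos_of_ne_zero hn), hζ])
  inv_val := Subtype.ext (by
    show ζ ^ (n - 1) * ζ = 1
    rw [← pow_succ, Nat.sub_add_cancel (Nat.pos_of_ne_zero hn), hζ])

@[simp]
theorem coe_unitOfPowEqOne {L : Type*} [Field L] (B : ValuationSubring L)
    {ζ : L} {n : ℕ} (hn : n ≠ 0) (hζ : ζ ^ n = 1) :
    ((unitOfPowEqOne B hn hζ : Bˣ) : B) = ⟨ζ, mem_valuationSubring_of_pow_eq_one B hn hζ⟩ := rfl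

/-- In residue characteristic `ℓ`, an `ℓ`-th root of unity reduces to `1`. -/
theorem residue_unitOfPowEqOne [CharP (IsLocalRing.ResidueField A) ℓ] {ζ : Kb}
    (hζ : ζ ^ ℓ = 1) :
    Units.map (IsLocalRing.residue A : A →* IsLocalRing.ResidueField A)
      (unitOfPowEqOne A hℓ.out.ne_zero hζ) = 1 := by
  haveI : ExpChar (IsLocalRing.ResidueField A) ℓ := ExpChar.prime hℓ.out
  apply Units.ext
  apply frobenius_inj (IsLocalRing.ResidueField A) ℓ
  rw [Units.coe_map, Units.val_one, map_one, frobenius_def]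
  show (IsLocalRing.residue A) (unitOfPowEqOne A hℓ.out.ne_zero hζ : A) ^ ℓ = 1
  rw [← map_pow, coe_unitOfPowEqOne]
  have : (⟨ζ, mem_valuationSubring_of_pow_eq_one A hℓ.out.ne_zero hζ⟩ : A) ^ ℓ = 1 :=
    Subtype.ext (by simpa using hζ)
  rw [this, map_one]

/-- **(KN)** The Kronecker norm congruence, from the product formula.  If `y ∈ F̄_N` has
`q`-expansion coefficients in `A` (`y = ι y0`), then so has `Nm_{F'/αF} (β y) = ι Y`, and
`Y mod 𝔪 = (y0 mod 𝔪)(q^ℓ) · σ (y0 mod 𝔪)` with `σ` the coefficientwise Frobenius. -/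
theorem normCongruence (hPF : ProductFormula N ℓ) [CharP (IsLocalRing.ResidueField A) ℓ]
    (y : Fb N) (y0 : LaurentSeries A)
    (hy0 : coeffMap A.subtype y0 = (y : LaurentSeries Kb)) :
    ∃ Y : LaurentSeries A,
      coeffMap A.subtype Y =
        ((normAlpha N ℓ (heckeBetaBar Kb N ℓ y) : Fb N) : LaurentSeries Kb) ∧
      coeffMap (IsLocalRing.residue A) Y =
        qExpand (IsLocalRing.ResidueField A) ℓ (coeffMap (IsLocalRing.residue A) y0) *
          coeffMap (frobenius (IsLocalRing.ResidueField A) ℓ)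
            (coeffMap (IsLocalRing.residue A) y0) := by
  classical
  set k := IsLocalRing.ResidueField A
  set π : A →+* k := IsLocalRing.residue A
  set ι : A →+* Kb := A.subtype
  have hι : Function.Injective ι := Subtype.val_injective
  have hℓ0 : ℓ ≠ 0 := hℓ.out.ne_zero
  -- a primitive `ℓ`-th root of unity
  obtain ⟨ζ0, hζ0⟩ := HasEnoughRootsOfUnity.exists_primitiveRoot Kb ℓ
  have hζ0pow : ζ0 ^ ℓ = 1 := hζ0.pow_eq_one
  set ζ : Kbˣ := (hζ0.isUnit hℓ0).unit with hζdef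
  have hζ : IsPrimitiveRoot ζ ℓ := by
    rw [← IsPrimitiveRoot.coe_units_iff]
    exact hζ0
  set ζA : Aˣ := unitOfPowEqOne A hℓ0 hζ0pow with hζAdef
  have hmapι : Units.map (ι : A →* Kb) ζA = ζ := by
    apply Units.ext
    rfl
  have hmapπ : Units.map (π : A →* k) ζA = 1 := residue_unitOfPowEqOne A hζ0pow
  -- the product of the rotated series over `A`
  set Z : LaurentSeries A := ∏ b ∈ Finset.range ℓ, scale (ζA ^ b) y0 with hZ
  have hZι : coeffMap ι Z = ∏ b ∈ Finset.range ℓ, scale (ζ ^ b) (y : LaurentSeries Kb) := by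
    rw [hZ, map_prod]
    refine Finset.prod_congr rfl fun b _ => ?_
    rw [coeffMap_scale, map_pow, hmapι, hy0]
  have hZπ : coeffMap π Z = (coeffMap π y0) ^ ℓ := by
    rw [hZ, map_prod]
    have : ∀ b ∈ Finset.range ℓ, coeffMap π (scale (ζA ^ b) y0) = coeffMap π y0 := by
      intro b _
      rw [coeffMap_scale, map_pow, hmapπ, one_pow, scale_one_apply]
    rw [Finset.prod_congr rfl this, Finset.prod_const, Finset.card_range]
  -- the product formula over `A`
  set T : LaurentSeries A := qExpand A (ℓ * ℓ) y0 * Z with hT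
  have hTι : coeffMap ι T =
      qExpand Kb ℓ ((normAlpha N ℓ (heckeBetaBar Kb N ℓ y) : Fb N) : LaurentSeries Kb) := by
    rw [hPF ζ hζ y, hT, map_mul, coeffMap_qExpand, hy0, hZι]
  -- coefficients of the norm lie in `A`
  obtain ⟨Y, hY⟩ := exists_coeffMap_eq_of_forall_coeff_mem ι
    ((normAlpha N ℓ (heckeBetaBar Kb N ℓ y) : Fb N) : LaurentSeries Kb) (fun n => by
      refine ⟨T.coeff ((ℓ : ℤ) * n), ?_⟩
      rw [← coeffMap_coeff, hTι, qExpand_coeff_mul])
  refine ⟨Y, hY, ?_⟩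
  have hYT : qExpand A ℓ Y = T := by
    apply coeffMap_injective_of_injective ι hι
    rw [coeffMap_qExpand, hY, hTι]
  have h1 := congrArg (coeffMap π) hYT
  rw [coeffMap_qExpand, hT, map_mul, coeffMap_qExpand, hZπ,
    pow_char_eq_qExpand_coeffMap_frobenius ℓ, ← qExpand_qExpand, ← map_mul] at h1
  exact qExpand_injective ℓ h1

end KN

end Fermat.Agent.ES
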