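import Mathlib

/-!
# S37 (M4), node ES-P, part II(b): norms from a labelled classification of embeddings

`F'/F` finite separable, `E` algebraically closed over `F`, `β : F →+* F'` any ring hom.  If every
`F`-embedding `τ : F' → E` satisfies `τ ∘ β = S i` for some label `i : I`, is determined by `τ ∘ β`,
and `|I| = [F' : F]`, then `N_{F'/F}(β y) = ∏ i, S i y` in `E`.
-/

set_option autoImplicit false

namespace Fermat.Agent.ES

open Module

theorem norm_eq_prod_of_labels {F F' E : Type*} [Field F] [Field F'] [Field E] [Algebra F F']
    [Algebra F E] [FiniteDimensional F F'] [Algebra.IsSeparable F F'] [IsAlgClosed E]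
    {I : Type*} [Fintype I] (hcard : Fintype.card I = finrank F F') (β : F →+* F')
    (S : I → (F →+* E))
    (hex : ∀ τ : F' →ₐ[F] E, ∃ i, (τ : F' →+* E).comp β = S i)
    (hinj : ∀ τ τ' : F' →ₐ[F] E, (τ : F' →+* E).comp β = (τ' : F' →+* E).comp β → τ = τ')
    (y : F) : algebraMap F E (Algebra.norm F (β y)) = ∏ i, S i y := by
  classical
  choose lab hlab using hex
  have hlinj : Function.Injective lab := by
    intro τ τ' h
    apply hinj
    rw [hlab, hlab, h]
  have hbij : Function.Bijective lab := by
    rw [Fintype.bijective_iff_injective_and_card]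
    exact ⟨hlinj, by rw [AlgHom.card F F' E, hcard]⟩
  rw [Algebra.norm_eq_prod_embeddings F E]
  refine Fintype.prod_bijective lab hbij _ _ fun τ => ?_
  have := congrArg (fun f : F →+* E => f y) (hlab τ)
  simpa using this

end Fermat.Agent.ES
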