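import Fermat.Agent.ES.PuiseuxRoots
import Fermat.Agent.ES.Generators
import Fermat.Agent.ES.NormLabels
import Fermat.Agent.Hecke.HeckeInputs
import Fermat.Agent.ES.NormCongruence
import Fermat.Agent.ES.ModEqKb
import Fermat.Agent.Hecke.HeckeDegrees

/-!
# S37 (M4), node ES-P: the product formula for the Hecke norm

`K = ℚ̄`, `F = F̄_N`, `F' = F̄_{Nℓ}` (`ℓ ∤ N` prime), `α = heckeAlphaBar` (inclusion),
`β = heckeBetaBar` (`y(q) ↦ y(q^ℓ)`).  Then, with `q = s^ℓ`,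

  `N_{F'/αF}(β y)(s^ℓ) = y(s^{ℓ²}) · ∏_{b<ℓ} y(ζ^b s)`   (`productFormula_of_modEqData`),

the classical multiplicative Hecke operator.  Proof: classification of the `ℓ+1` embeddings of `F'`
over `αF` into the algebraic closure of `K((t))`, `q = t^{Nℓ}`, by the common-root induction
`ES.tower_classification`, then `ES.norm_eq_prod_of_labels`.
-/

set_option autoImplicit false
set_option linter.unusedSectionVars false
set_option linter.style.haveILetI false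

noncomputable section

namespace Fermat.Agent.ES

open Polynomial HahnSeries ModularCurve AlgebraicCurve Fermat.Agent.Igusa Fermat.Agent.X0
  Fermat.Agent.Hecke

/-! ### Constants -/

section Constants

theorem algebraMap_laurent_eq_C (a : Kb) :
    algebraMap Kb (LaurentSeries Kb) a = HahnSeries.C a := by
  rw [algebraMap_laurentSeries_eq_single, HahnSeries.C_apply]

theorem qExpand_C (m : ℕ) [NeZero m] (a : Kb) :
    qExpand Kb m (HahnSeries.C a) = HahnSeries.C a := by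
  rw [HahnSeries.C_apply, qExpand_single, mul_zero]

end Constants

/-! ### Relations between the generators -/

section Relations

variable {N' : ℕ} [NeZero N']

/-- A polynomial relation between two elements of `F̄_{N'}` can be checked after `q ↦ q^m`. -/
theorem ev2_eq_zero_of_qExpand (m : ℕ) [NeZero m] (Φ : Kb[X][X]) (x y : Fb N')
    (h : ev2 (HahnSeries.C : Kb →+* LaurentSeries Kb) Φ (qExpand Kb m (x : LaurentSeries Kb))
      (qExpand Kb m (y : LaurentSeries Kb)) = 0) :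
    ev2 (algebraMap Kb (Fb N')) Φ x y = 0 := by
  let emb : Fb N' →+* LaurentSeries Kb :=
    (qExpand Kb m).comp (algebraMap (Fb N') (LaurentSeries Kb))
  have hinj : Function.Injective emb := emb.injective
  apply hinj
  rw [map_zero, map_ev2]
  have hκ : emb.comp (algebraMap Kb (Fb N')) = (HahnSeries.C : Kb →+* LaurentSeries Kb) := by
    ext a : 1
    show qExpand Kb m (algebraMap Kb (LaurentSeries Kb) a) = HahnSeries.C a
    rw [algebraMap_laurent_eq_C, qExpand_C]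
  rw [hκ]
  exact h

/-- The modular equation `Φ_p(j(q^{np}), j(q^n)) = 0` inside `F̄_{N'}`. -/
theorem rel_modEq {p : ℕ} [NeZero p] {ζ : Kbˣ} {pinv : Kb} (dp : ModEqData Kb p ζ pinv)
    (x y : Fb N') {n : ℕ} (hn : n ≠ 0) (hx : (x : LaurentSeries Kb) = Jz 1 (n * p))
    (hy : (y : LaurentSeries Kb) = Jz 1 n) :
    ev2 (algebraMap Kb (Fb N')) dp.Phi x y = 0 := by
  apply ev2_eq_zero_of_qExpand p
  have hp : p ≠ 0 := NeZero.ne p
  rw [hx, hy, qExpand_Jz p 1 (mul_ne_zero hn hp), qExpand_Jz p 1 hn]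
  have h := (ev2_eq_zero_iff (RingHom.id (LaurentSeries Kb)) dp 1 hn
    (Jz ((1 : Kbˣ) ^ (p * p)) (n * (p * p)))).mpr (Or.inl rfl)
  simp only [one_pow, RingHom.id_comp, RingHom.id_apply] at h
  have e1 : p * (n * p) = n * (p * p) := by ring
  have e2 : p * n = n * p := by ring
  rw [e1, e2]
  exact h

end Relations

/-! ### The generators of `F̄_N` and `F̄_{Nℓ}` -/

section Gens

variable (N ℓ : ℕ) [NeZero N] [NeZero ℓ]

/-- `j(q^d)` as an element of `F̄_N` (junk value `0` unless `d ∣ N`). -/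
def jGenZ (d : ℕ) : Fb N :=
  if h : d ∣ N then
    haveI : NeZero d := ⟨fun h0 => NeZero.ne N (by rw [h0] at h; exact zero_dvd_iff.mp h)⟩
    jGen N d h
  else 0

theorem jGenZ_eq {d : ℕ} [NeZero d] (hd : d ∣ N) : jGenZ N d = jGen N d hd := by
  unfold jGenZ
  rw [dif_pos hd]

theorem coe_jGenZ {d : ℕ} (hd : d ∣ N) : ((jGenZ N d : Fb N) : LaurentSeries Kb) = Jz 1 d := by
  haveI : NeZero d := ⟨fun h0 => NeZero.ne N (by rw [h0] at hd; exact zero_dvd_iff.mp hd)⟩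
  rw [jGenZ_eq N hd, coe_jGen, Jz_one_eq_jqNModC]

theorem coe_alpha_jGenZ {d : ℕ} (hd : d ∣ N) :
    ((heckeAlphaBar Kb N ℓ (jGenZ N d) : Fb (N * ℓ)) : LaurentSeries Kb) = Jz 1 d := by
  rw [coe_heckeAlphaBar, coe_jGenZ N hd]

theorem coe_beta_jGenZ {d : ℕ} (hd : d ∣ N) :
    ((heckeBetaBar Kb N ℓ (jGenZ N d) : Fb (N * ℓ)) : LaurentSeries Kb) = Jz 1 (ℓ * d) := by
  have hd0 : d ≠ 0 := fun h0 => NeZero.ne N (by rw [h0] at hd; exact zero_dvd_iff.mp hd)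
  rw [coe_heckeBetaBar, coe_jGenZ N hd, qExpand_Jz ℓ 1 hd0]

/-- Every generator `j(q^e)`, `e ∣ Nℓ`, of `F̄_{Nℓ}` is `α (j(q^d))` or `β (j(q^d))`, `d ∣ N`. -/
theorem jGen_mul_eq (hℓ : ℓ.Prime) (e : ℕ) [NeZero e] (he : e ∣ N * ℓ) :
    (∃ d, d ∣ N ∧ jGen (L := Kb) (N * ℓ) e he = heckeAlphaBar Kb N ℓ (jGenZ N d)) ∨
      ∃ d, d ∣ N ∧ jGen (L := Kb) (N * ℓ) e he = heckeBetaBar Kb N ℓ (jGenZ N d) := by
  by_cases hℓe : ℓ ∣ e
  · right
    obtain ⟨d, rfl⟩ := hℓe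
    have hd : d ∣ N := by
      rw [mul_comm N ℓ] at he
      exact Nat.dvd_of_mul_dvd_mul_left hℓ.pos he
    refine ⟨d, hd, Subtype.ext ?_⟩
    rw [coe_beta_jGenZ N ℓ hd, coe_jGen, Jz_one_eq_jqNModC]
  · left
    have hd : e ∣ N := ((Nat.Prime.coprime_iff_not_dvd hℓ).mpr hℓe).symm.dvd_of_dvd_mul_right he
    refine ⟨e, hd, Subtype.ext ?_⟩
    rw [coe_alpha_jGenZ N ℓ hd, coe_jGen, Jz_one_eq_jqNModC]

end Gens

/-! ### The product formula -/

section Main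

variable {N ℓ : ℕ} [NeZero N] [NeZero ℓ]

theorem qExpand_qExpand (m n : ℕ) [NeZero m] [NeZero n] (f : LaurentSeries Kb) :
    qExpand Kb m (qExpand Kb n f) = qExpand Kb (m * n) f := by
  rw [← subst_one_unit, ← subst_one_unit, ← subst_one_unit, subst_subst, one_pow, one_mul]

/-- The ambient algebraically closed field. -/
abbrev EΩ : Type := AlgebraicClosure (LaurentSeries Kb)

/-- `K((t)) → Ω`. -/
def ιΩ : LaurentSeries Kb →+* EΩ := algebraMap (LaurentSeries Kb) EΩ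

theorem ιΩ_injective : Function.Injective ιΩ := ιΩ.injective

variable (N ℓ)

/-- The structure map `F̄_N → Ω`, `y(q) ↦ y(t^{Nℓ})`. -/
def strΩ : Fb N →+* EΩ :=
  ιΩ.comp ((qExpand Kb (N * ℓ)).comp (algebraMap (Fb N) (LaurentSeries Kb)))

theorem strΩ_apply (x : Fb N) : strΩ N ℓ x = ιΩ (qExpand Kb (N * ℓ) (x : LaurentSeries Kb)) := rfl

/-- The candidate restrictions to `β F̄_N` of the embeddings: `y ↦ y(t^{Nℓ²})` and
`y ↦ y(ζ^b t^N)`. -/
def substΩ (ζ : Kbˣ) : Option (Fin ℓ) → (Fb N →+* EΩ) := fun i =>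
  i.elim (ιΩ.comp ((qExpand Kb (N * (ℓ * ℓ))).comp (algebraMap (Fb N) (LaurentSeries Kb))))
    (fun b => ιΩ.comp ((subst (ζ ^ (b : ℕ)) N).comp (algebraMap (Fb N) (LaurentSeries Kb))))

theorem substΩ_none (ζ : Kbˣ) (x : Fb N) :
    substΩ N ℓ ζ none x = ιΩ (qExpand Kb (N * (ℓ * ℓ)) (x : LaurentSeries Kb)) := rfl

theorem substΩ_some (ζ : Kbˣ) (b : Fin ℓ) (x : Fb N) :
    substΩ N ℓ ζ (some b) x = ιΩ (subst (ζ ^ (b : ℕ)) N (x : LaurentSeries Kb)) := rfl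

theorem prod_substΩ (ζ : Kbˣ) (y : Fb N) :
    ∏ i, substΩ N ℓ ζ i y = ιΩ (qExpand Kb N (qExpand Kb (ℓ * ℓ) (y : LaurentSeries Kb) *
      ∏ b ∈ Finset.range ℓ, scale (ζ ^ b) (y : LaurentSeries Kb))) := by
  rw [Fintype.prod_option, substΩ_none, map_mul, map_mul, map_prod, map_prod, qExpand_qExpand,
    ← Fin.prod_univ_eq_prod_range
      (fun b => ιΩ (qExpand Kb N (scale (ζ ^ b) (y : LaurentSeries Kb))))]
  congr 1

theorem substΩ_algebraMap (ζ : Kbˣ) (i : Option (Fin ℓ)) (a : Kb) :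
    substΩ N ℓ ζ i (algebraMap Kb (Fb N) a) = ιΩ (HahnSeries.C a) := by
  have h3 : ((algebraMap Kb (Fb N) a : Fb N) : LaurentSeries Kb) = HahnSeries.C a :=
    algebraMap_laurent_eq_C a
  rcases i with _ | b
  · rw [substΩ_none, h3, qExpand_C]
  · rw [substΩ_some, h3, subst_C]

variable {N ℓ}

section Embeddings

variable [algF : Algebra (Fb N) (Fb (N * ℓ))] [algE : Algebra (Fb N) EΩ]
  (hF : algebraMap (Fb N) (Fb (N * ℓ)) = (heckeAlphaBar Kb N ℓ).toRingHom)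
  (hE : algebraMap (Fb N) EΩ = strΩ N ℓ)

include hF hE

theorem tau_alpha (τ : Fb (N * ℓ) →ₐ[Fb N] EΩ) (x : Fb N) :
    τ (heckeAlphaBar Kb N ℓ x) = ιΩ (qExpand Kb (N * ℓ) (x : LaurentSeries Kb)) := by
  have h := τ.commutes x
  rw [hF, hE, strΩ_apply] at h
  exact h

theorem tau_const (τ : Fb (N * ℓ) →ₐ[Fb N] EΩ) :
    (τ : Fb (N * ℓ) →+* EΩ).comp (algebraMap Kb (Fb (N * ℓ))) =
      ιΩ.comp (HahnSeries.C : Kb →+* LaurentSeries Kb) := by
  ext a : 1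
  have h1 : algebraMap Kb (Fb (N * ℓ)) a = heckeAlphaBar Kb N ℓ (algebraMap Kb (Fb N) a) :=
    ((heckeAlphaBar Kb N ℓ).commutes a).symm
  have h3 : ((algebraMap Kb (Fb N) a : Fb N) : LaurentSeries Kb) = HahnSeries.C a :=
    algebraMap_laurent_eq_C a
  rw [RingHom.comp_apply, RingHom.comp_apply, h1]
  have := tau_alpha hF hE τ (algebraMap Kb (Fb N) a)
  rw [h3, qExpand_C] at this
  exact this

/-- Classification of the embeddings. -/
theorem exists_label (hℓ : ℓ.Prime) (hℓN : ¬ ℓ ∣ N)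
    {ζ : Kbˣ} {ℓinv : Kb} (hζ : IsPrimitiveRoot ζ ℓ) (dℓ : ModEqData Kb ℓ ζ ℓinv)
    (Ph : ℕ → Kb[X][X])
    (hPh : ∀ p (hp : p.Prime), p ∣ N → ∃ (ζp : Kbˣ) (pinv : Kb)
      (dp : @ModEqData Kb _ p ⟨hp.ne_zero⟩ ζp pinv),
        @ModEqData.Phi Kb _ p ⟨hp.ne_zero⟩ ζp pinv dp = Ph p)
    (τ : Fb (N * ℓ) →ₐ[Fb N] EΩ) :
    ∃ i, (τ : Fb (N * ℓ) →+* EΩ).comp (heckeBetaBar Kb N ℓ).toRingHom = substΩ N ℓ ζ i := by
  have hN0 : N ≠ 0 := NeZero.ne N
  have hℓ0 : ℓ ≠ 0 := NeZero.ne ℓ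
  let z : ℕ → EΩ := fun d => τ (heckeBetaBar Kb N ℓ (jGenZ N d))
  have hd0 : ∀ d, d ∣ N → d ≠ 0 := fun d hd h0 => hN0 (by rw [h0] at hd; exact zero_dvd_iff.mp hd)
  have hR1 : ∀ d, d ∣ N → ev2 (ιΩ.comp (HahnSeries.C : Kb →+* LaurentSeries Kb)) dℓ.Phi (z d)
      (ιΩ (Jz 1 (d * N * ℓ))) = 0 := by
    intro d hd
    have h := rel_modEq dℓ (heckeBetaBar Kb N ℓ (jGenZ N d)) (heckeAlphaBar Kb N ℓ (jGenZ N d))
      (hd0 d hd) (by rw [coe_beta_jGenZ N ℓ hd, mul_comm]) (coe_alpha_jGenZ N ℓ hd)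
    have h2 := congrArg (τ : Fb (N * ℓ) →+* EΩ) h
    rw [map_zero, map_ev2, tau_const hF hE τ] at h2
    have e : (τ : Fb (N * ℓ) →+* EΩ) (heckeAlphaBar Kb N ℓ (jGenZ N d)) =
        ιΩ (Jz 1 (d * N * ℓ)) := by
      have := tau_alpha hF hE τ (jGenZ N d)
      rw [coe_jGenZ N hd, qExpand_Jz _ 1 (hd0 d hd)] at this
      rw [show d * N * ℓ = N * ℓ * d by ring]
      exact this
    rw [e] at h2
    exact h2
  have hR2 : ∀ d p, p.Prime → d * p ∣ N →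
      ev2 (ιΩ.comp (HahnSeries.C : Kb →+* LaurentSeries Kb)) (Ph p) (z (d * p)) (z d) = 0 := by
    intro d p hp hdp
    have hd : d ∣ N := dvd_trans (dvd_mul_right d p) hdp
    obtain ⟨ζp, pinv, dp, hdp'⟩ := hPh p hp (dvd_trans (dvd_mul_left p d) hdp)
    haveI : NeZero p := ⟨hp.ne_zero⟩
    have h := rel_modEq dp (heckeBetaBar Kb N ℓ (jGenZ N (d * p)))
      (heckeBetaBar Kb N ℓ (jGenZ N d)) (n := ℓ * d) (mul_ne_zero hℓ0 (hd0 d hd))
      (by rw [coe_beta_jGenZ N ℓ hdp, mul_assoc]) (coe_beta_jGenZ N ℓ hd)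
    have h2 := congrArg (τ : Fb (N * ℓ) →+* EΩ) h
    rw [map_zero, map_ev2, tau_const hF hE τ, hdp'] at h2
    exact h2
  have hconst : ∀ (a : Kb) (i : Option (Fin ℓ)),
      ((τ : Fb (N * ℓ) →+* EΩ).comp (heckeBetaBar Kb N ℓ).toRingHom) (algebraMap Kb (Fb N) a) =
        substΩ N ℓ ζ i (algebraMap Kb (Fb N) a) := by
    intro a i
    have h1 : (heckeBetaBar Kb N ℓ).toRingHom (algebraMap Kb (Fb N) a) =
        algebraMap Kb (Fb (N * ℓ)) a := (heckeBetaBar Kb N ℓ).commutes a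
    have h2 := congrArg (fun f : Kb →+* EΩ => f a) (tau_const hF hE τ)
    rw [RingHom.comp_apply, h1, substΩ_algebraMap]
    exact h2
  rcases tower_classification ιΩ hℓ hℓN (dvd_refl N) hN0 hζ dℓ Ph hPh z hR1 hR2 with
    h | ⟨b, hb, h⟩
  · refine ⟨none, ringHom_ext_jGen N _ _ (fun a => hconst a none) ?_⟩
    intro d _ hd
    rw [← jGenZ_eq N hd, substΩ_none, coe_jGenZ N hd, qExpand_Jz _ 1 (hd0 d hd)]
    have := h d hd
    rw [show d * N * (ℓ * ℓ) = N * (ℓ * ℓ) * d by ring] at this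
    exact this
  · refine ⟨some ⟨b, Finset.mem_range.mp hb⟩,
      ringHom_ext_jGen N _ _ (fun a => hconst a _) ?_⟩
    intro d _ hd
    rw [← jGenZ_eq N hd, substΩ_some, coe_jGenZ N hd, subst_Jz _ N 1 (hd0 d hd), one_mul,
      mul_comm N d]
    exact h d hd

/-- Embeddings are determined by their restriction to `β F̄_N`. -/
theorem tau_ext (hℓ : ℓ.Prime) (τ τ' : Fb (N * ℓ) →ₐ[Fb N] EΩ)
    (h : (τ : Fb (N * ℓ) →+* EΩ).comp (heckeBetaBar Kb N ℓ).toRingHom =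
      (τ' : Fb (N * ℓ) →+* EΩ).comp (heckeBetaBar Kb N ℓ).toRingHom) : τ = τ' := by
  have hr : (τ : Fb (N * ℓ) →+* EΩ) = (τ' : Fb (N * ℓ) →+* EΩ) := by
    refine ringHom_ext_jGen (N * ℓ) _ _ ?_ ?_
    · intro a
      have h1 := congrArg (fun f : Kb →+* EΩ => f a) (tau_const hF hE τ)
      have h2 := congrArg (fun f : Kb →+* EΩ => f a) (tau_const hF hE τ')
      exact h1.trans h2.symm
    · intro e _ he
      rcases jGen_mul_eq N ℓ hℓ e he with ⟨d, hd, hed⟩ | ⟨d, hd, hed⟩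
      · rw [hed]
        exact (tau_alpha hF hE τ _).trans (tau_alpha hF hE τ' _).symm
      · rw [hed]
        exact congrArg (fun f : Fb N →+* EΩ => f (jGenZ N d)) h
  exact AlgHom.coe_ringHom_injective hr

end Embeddings

/-- **(PF), hypothesis form on modular equation data and on the degree.** -/
theorem productFormula_of_modEqData (hℓ : ℓ.Prime) (hℓN : ¬ ℓ ∣ N)
    {ζ : Kbˣ} {ℓinv : Kb} (hζ : IsPrimitiveRoot ζ ℓ) (dℓ : ModEqData Kb ℓ ζ ℓinv)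
    (Ph : ℕ → Kb[X][X])
    (hPh : ∀ p (hp : p.Prime), p ∣ N → ∃ (ζp : Kbˣ) (pinv : Kb)
      (dp : @ModEqData Kb _ p ⟨hp.ne_zero⟩ ζp pinv),
        @ModEqData.Phi Kb _ p ⟨hp.ne_zero⟩ ζp pinv dp = Ph p)
    (hdeg : finrankAlong Kb (heckeAlphaBar Kb N ℓ) = ℓ + 1) (y : Fb N) :
    qExpand Kb ℓ ((normAlpha N ℓ (heckeBetaBar Kb N ℓ y) : Fb N) : LaurentSeries Kb) =
      qExpand Kb (ℓ * ℓ) (y : LaurentSeries Kb) *
        ∏ b ∈ Finset.range ℓ, scale (ζ ^ b) (y : LaurentSeries Kb) := by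
  classical
  letI algF : Algebra (Fb N) (Fb (N * ℓ)) := algebraAlong (heckeAlphaBar Kb N ℓ)
  haveI : FiniteDimensional (Fb N) (Fb (N * ℓ)) := finiteAlong_heckeAlphaBar N ℓ
  haveI : Algebra.IsSeparable (Fb N) (Fb (N * ℓ)) :=
    isSeparable_along_of_charZero _ (finiteAlong_heckeAlphaBar N ℓ)
  letI algE : Algebra (Fb N) EΩ := (strΩ N ℓ).toAlgebra
  have hF : algebraMap (Fb N) (Fb (N * ℓ)) = (heckeAlphaBar Kb N ℓ).toRingHom := rfl
  have hE : algebraMap (Fb N) EΩ = strΩ N ℓ := RingHom.algebraMap_toAlgebra _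
  have hcard : Fintype.card (Option (Fin ℓ)) = Module.finrank (Fb N) (Fb (N * ℓ)) := by
    rw [Fintype.card_option, Fintype.card_fin]
    exact hdeg.symm
  have key := norm_eq_prod_of_labels (F := Fb N) (F' := Fb (N * ℓ)) (E := EΩ) hcard
    (heckeBetaBar Kb N ℓ).toRingHom (substΩ N ℓ ζ)
    (exists_label hF hE hℓ hℓN hζ dℓ Ph hPh) (tau_ext hF hE hℓ) y
  rw [prod_substΩ, hE, strΩ_apply, ← qExpand_qExpand N ℓ] at key
  have h1 := ιΩ_injective key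
  have h2 : (Algebra.norm (Fb N) ((heckeBetaBar Kb N ℓ).toRingHom y) : Fb N) =
      normAlpha N ℓ (heckeBetaBar Kb N ℓ y) := rfl
  rw [h2] at h1
  exact subst_injective (1 : Kbˣ) N (by rw [subst_one_unit, subst_one_unit]; exact h1)

/-- **(PF), hypothesis form on the degree only.** -/
theorem productFormula_of_degree (hℓ : ℓ.Prime) (hℓN : ¬ ℓ ∣ N)
    (hdeg : finrankAlong Kb (heckeAlphaBar Kb N ℓ) = ℓ + 1) : ProductFormula N ℓ := by
  intro ζ hζ y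
  obtain ⟨ζ0, ℓinv, hζ0, ⟨dℓ⟩⟩ := exists_modEqData_Kb ℓ hℓ
  have hex : ∀ p : ℕ, ∃ Φ : Kb[X][X], ∀ hp : p.Prime, ∃ (ζp : Kbˣ) (pinv : Kb)
      (dp : @ModEqData Kb _ p ⟨hp.ne_zero⟩ ζp pinv),
        @ModEqData.Phi Kb _ p ⟨hp.ne_zero⟩ ζp pinv dp = Φ := by
    intro p
    by_cases hp : p.Prime
    · obtain ⟨ζp, pinv, _, ⟨dp⟩⟩ := exists_modEqData_Kb p hp
      exact ⟨@ModEqData.Phi Kb _ p ⟨hp.ne_zero⟩ ζp pinv dp, fun _ => ⟨ζp, pinv, dp, rfl⟩⟩
    · exact ⟨0, fun h => absurd h hp⟩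
  choose Ph hPh using hex
  have key := productFormula_of_modEqData hℓ hℓN hζ0 dℓ Ph (fun p hp _ => hPh p hp) hdeg y
  rw [key, prod_pow_primitiveRoot_eq hζ0 hζ (fun u => scale u (y : LaurentSeries Kb))]

/-- **(PF)** The product formula for the Hecke norm:
`(Nm_{F'/αF} (β y))(q^ℓ) = y(q^{ℓ²}) · ∏_{b<ℓ} y(ζ^b q)`. -/
theorem productFormula (hℓ : ℓ.Prime) (hℓN : ¬ ℓ ∣ N) : ProductFormula N ℓ :=
  productFormula_of_degree hℓ hℓN (Fermat.Agent.Hecke.Deg.finrankAlong_heckeAlphaBar N ℓ hℓ hℓN)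

end Main

end Fermat.Agent.ES
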