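import Mathlib
import Fermat.Agent.ES.NormCongruence
import Fermat.Agent.Hecke.ESDivisor2
import Fermat.Agent.Hecke.RedInputs
import Fermat.Agent.Val.GaloisModL
import Fermat.Agent.Jac.HeckeComm

/-!
# S37 (M4), node ES-A: the Eichler–Shimura congruence for the Prelude's reduction map

`A` a valuation subring of `ℚ̄` with residue field `k` of characteristic `ℓ` (perfect), `r` a
place reduction in the sense of the Prelude (`IsPlaceReductionModL A N r`), `T_ℓ = heckeDiv N ℓ`
the Hecke correspondence on divisors of `X₀(N)` over `ℚ̄`, `σ = frobSL k ℓ N` the coefficientwise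
Frobenius of `F̃_N` (a semilinear automorphism, acting on places, divisors and `Pic⁰` through
the Prelude's `SemilinearAut` actions).

Given the product formula `hPF : ProductFormula N ℓ` (`ES/NormCongruence.lean`):

* `mapDomain_heckeDiv_integral` : `r_* T_ℓ (div y) = σ (div ȳ) + ℓ σ⁻¹ (div ȳ)` for an
  `A`-integral function `y` with nonzero reduction `ȳ` (norm congruence + conservation +
  freshman's dream);
* `esG_eq_esH_principal` : the same for all principal divisors (`PrincipalGeneratedByIntegral`);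
* `mapDomain_heckeDiv` : `r_* T_ℓ D = σ r_* D + ℓ σ⁻¹ r_* D` for all divisors of degree zero
  (constancy lemma `Hecke.eq_of_eq_on_principal'`);
* `reductionModL_heckeOperatorBar` : **field (c)** of `Hecke/SpecFormal.lean` for the Prelude's
  `reductionModL A N`:
  `red (T_ℓ x) = σ • red x + ℓ • σ⁻¹ • red x` on `J₀(N)`.
-/

set_option autoImplicit false
set_option linter.style.haveILetI false
set_option linter.unusedSectionVars false

noncomputable section
namespace Fermat.Agent.ES

open AlgebraicCurve ModularCurve HahnSeries IsLocalRing Fermat.Agent.X0 Fermat.Agent.Hecke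
  Fermat.Agent.Val Fermat.Agent.Red Fermat.Agent.Val.GaloisModL Fermat.Agent.Jac

set_option synthInstance.maxHeartbeats 400000
set_option maxHeartbeats 1000000

/-! ### Semilinear automorphisms and divisors of functions -/

section Semilinear

variable {K F : Type*} [Field K] [Field F] [Algebra K F] [HasPrincipalDivisors K F]

/-- `div (g • f) = g • div f` for a semilinear automorphism `g`. -/
theorem divOf_smul_semilinear (g : SemilinearAut K F) (f : F) :
    divOf K (g • f) = g • divOf K f := by
  ext w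
  rw [SemilinearAut.divisor_smul_apply, divOf_apply, divOf_apply]
  have h := SemilinearAut.ord_smul g (g⁻¹ • w) f
  rwa [smul_inv_smul] at h

theorem semilinear_smul_divisor_nonneg (g : SemilinearAut K F) {D : Divisor K F} (hD : 0 ≤ D) :
    0 ≤ g • D := by
  intro w
  rw [SemilinearAut.divisor_smul_apply]
  exact hD _

end Semilinear

/-! ### The Frobenius side in characteristic `ℓ` -/

section CharL

variable (k : Type*) [Field k] (ℓ : ℕ) [hℓ : Fact ℓ.Prime] [NeZero ℓ] [CharP k ℓ] [ExpChar k ℓ]
  [PerfectRing k ℓ] (N : ℕ) [NeZero N]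

/-- The coefficientwise `ℓ`-power Frobenius of `F̃_N`, as a semilinear automorphism. -/
def frobSL : SemilinearAut k (modularFunctionFieldFullC k N) :=
  coeffAutC k N (frobeniusEquiv k ℓ)

theorem coe_frobSL_smul (y : modularFunctionFieldFullC k N) :
    ((frobSL k ℓ N • y : modularFunctionFieldFullC k N) : LaurentSeries k) =
      coeffMap (frobenius k ℓ) (y : LaurentSeries k) := by
  rw [frobSL, coe_coeffAutC_smul]
  rfl

theorem coe_frobSL_inv_smul (y : modularFunctionFieldFullC k N) :
    (((frobSL k ℓ N)⁻¹ • y : modularFunctionFieldFullC k N) : LaurentSeries k) =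
      coeffMap ((frobeniusEquiv k ℓ).symm : k →+* k) (y : LaurentSeries k) := by
  rw [frobSL, ← map_inv, coe_coeffAutC_smul]
  rfl

/-- `y(q^ℓ) = (σ⁻¹ y)^ℓ` in `F̃_N`. -/
theorem qExpand_eq_frobSL_inv_smul_pow (y : modularFunctionFieldFullC k N) :
    qExpand k ℓ (y : LaurentSeries k) =
      ((((frobSL k ℓ N)⁻¹ • y) ^ ℓ : modularFunctionFieldFullC k N) : LaurentSeries k) := by
  have h := pow_char_eq_qExpand_coeffMap_frobenius ℓ
    (coeffMap ((frobeniusEquiv k ℓ).symm : k →+* k) (y : LaurentSeries k))
  rw [coeffMap_coeffMap] at h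
  have hid : (frobenius k ℓ).comp ((frobeniusEquiv k ℓ).symm : k →+* k) = RingHom.id k := by
    ext a
    simp
  rw [hid, coeffMap_id] at h
  rw [← h, ← coe_frobSL_inv_smul]
  rfl

/-- The divisor of `y(q^ℓ) · σ(y) = (σ⁻¹ y)^ℓ · σ y`. -/
theorem divOf_frob_mul [HasPrincipalDivisors k (modularFunctionFieldFullC k N)]
    (y : modularFunctionFieldFullC k N) (hy : y ≠ 0) :
    divOf k (((frobSL k ℓ N)⁻¹ • y) ^ ℓ * (frobSL k ℓ N • y)) =
      frobSL k ℓ N • divOf k y + ℓ • ((frobSL k ℓ N)⁻¹ • divOf k y) := by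
  have ha0 : (frobSL k ℓ N)⁻¹ • y ≠ 0 := (smul_ne_zero_iff_ne (frobSL k ℓ N)⁻¹).mpr hy
  have hb0 : frobSL k ℓ N • y ≠ 0 := (smul_ne_zero_iff_ne (frobSL k ℓ N)).mpr hy
  rw [divOf_mul (pow_ne_zero _ ha0) hb0, divOf_pow, divOf_smul_semilinear, divOf_smul_semilinear,
    add_comm]

end CharL

/-! ### The congruence on principal divisors -/

section Main

variable (N : ℕ) [NeZero N] {ℓ : ℕ} [hℓ : Fact ℓ.Prime] [NeZero ℓ]
variable (A : ValuationSubring Kb)
variable [CharP (ResidueField A) ℓ] [ExpChar (ResidueField A) ℓ] [PerfectRing (ResidueField A) ℓ]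
variable [HasPrincipalDivisors (ResidueField A) (modularFunctionFieldFullC (ResidueField A) N)]
variable {r : Place Kb (Fb N) →
  Place (ResidueField A) (modularFunctionFieldFullC (ResidueField A) N)}

/-- Conservation for the Prelude's place reductions, in `divOf` form. -/
theorem mapDomain_divOf_integral (hr : IsPlaceReductionModL A N r)
    (Y : LaurentSeries A) (hY : coeffMap A.subtype Y ∈ modularFunctionFieldBar N)
    (hYk : coeffMap (residue A) Y ∈ modularFunctionFieldFullC (ResidueField A) N)
    (hne : coeffMap (residue A) Y ≠ 0) :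
    Finsupp.mapDomain r (divOf Kb (⟨coeffMap A.subtype Y, hY⟩ : Fb N)) =
      divOf (ResidueField A)
        (⟨coeffMap (residue A) Y, hYk⟩ : modularFunctionFieldFullC (ResidueField A) N) := by
  ext Q
  rw [hr.2 Y hY hYk hne (divOf Kb (⟨coeffMap A.subtype Y, hY⟩ : Fb N))
    (fun P => divOf_apply _ P) Q, divOf_apply]

/-- The congruence on the divisor of an `A`-integral function with nonzero reduction. -/
theorem mapDomain_heckeDiv_integral (hPF : ProductFormula N ℓ) (hr : IsPlaceReductionModL A N r)
    (y0 : LaurentSeries A) (hy : coeffMap A.subtype y0 ∈ modularFunctionFieldBar N)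
    (hyk : coeffMap (residue A) y0 ∈ modularFunctionFieldFullC (ResidueField A) N)
    (hne : coeffMap (residue A) y0 ≠ 0) :
    Finsupp.mapDomain r (heckeDiv N ℓ (divOf Kb (⟨coeffMap A.subtype y0, hy⟩ : Fb N))) =
      frobSL (ResidueField A) ℓ N •
          divOf (ResidueField A)
            (⟨coeffMap (residue A) y0, hyk⟩ : modularFunctionFieldFullC (ResidueField A) N) +
        ℓ • ((frobSL (ResidueField A) ℓ N)⁻¹ •
          divOf (ResidueField A)
            (⟨coeffMap (residue A) y0, hyk⟩ : modularFunctionFieldFullC (ResidueField A) N)) := by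
  have hyt0 : (⟨coeffMap (residue A) y0, hyk⟩ :
      modularFunctionFieldFullC (ResidueField A) N) ≠ 0 := fun h => hne (congrArg Subtype.val h)
  have hy0 : (⟨coeffMap A.subtype y0, hy⟩ : Fb N) ≠ 0 := by
    intro h
    apply hne
    have h1 : coeffMap A.subtype y0 = 0 := congrArg Subtype.val h
    have h2 : y0 = 0 :=
      coeffMap_injective_of_injective A.subtype Subtype.val_injective (by rw [h1, map_zero])
    rw [h2, map_zero]
  -- the norm
  rw [heckeDiv_divOf N ℓ hy0]
  obtain ⟨Y, hY, hYred⟩ := normCongruence A hPF ⟨coeffMap A.subtype y0, hy⟩ y0 rfl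
  have hYF : coeffMap A.subtype Y ∈ modularFunctionFieldBar N := by
    rw [hY]; exact SetLike.coe_mem _
  have hYeq : (⟨coeffMap A.subtype Y, hYF⟩ : Fb N) =
      heckeNorm N ℓ ⟨coeffMap A.subtype y0, hy⟩ := Subtype.ext hY
  -- the reduction of the norm
  have hred : coeffMap (residue A) Y =
      ((((frobSL (ResidueField A) ℓ N)⁻¹ • (⟨coeffMap (residue A) y0, hyk⟩ :
          modularFunctionFieldFullC (ResidueField A) N)) ^ ℓ *
        (frobSL (ResidueField A) ℓ N • (⟨coeffMap (residue A) y0, hyk⟩ :
          modularFunctionFieldFullC (ResidueField A) N)) :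
        modularFunctionFieldFullC (ResidueField A) N) : LaurentSeries (ResidueField A)) := by
    have h1 := qExpand_eq_frobSL_inv_smul_pow (ResidueField A) ℓ N ⟨coeffMap (residue A) y0, hyk⟩
    have h2 := coe_frobSL_smul (ResidueField A) ℓ N ⟨coeffMap (residue A) y0, hyk⟩
    rw [hYred]
    exact congrArg₂ (· * ·) h1 h2.symm
  have hYk : coeffMap (residue A) Y ∈ modularFunctionFieldFullC (ResidueField A) N := by
    rw [hred]; exact SetLike.coe_mem _
  have hYkeq : (⟨coeffMap (residue A) Y, hYk⟩ : modularFunctionFieldFullC (ResidueField A) N) =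
      ((frobSL (ResidueField A) ℓ N)⁻¹ • (⟨coeffMap (residue A) y0, hyk⟩ :
          modularFunctionFieldFullC (ResidueField A) N)) ^ ℓ *
        (frobSL (ResidueField A) ℓ N • (⟨coeffMap (residue A) y0, hyk⟩ :
          modularFunctionFieldFullC (ResidueField A) N)) := Subtype.ext hred
  have hYne : coeffMap (residue A) Y ≠ 0 := by
    intro h
    have h0 : (⟨coeffMap (residue A) Y, hYk⟩ :
        modularFunctionFieldFullC (ResidueField A) N) = 0 := Subtype.ext h
    rw [hYkeq] at h0
    exact mul_ne_zero (pow_ne_zero _ ((smul_ne_zero_iff_ne _).mpr hyt0))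
      ((smul_ne_zero_iff_ne _).mpr hyt0) h0
  rw [← hYeq, mapDomain_divOf_integral N A hr Y hYF hYk hYne, hYkeq,
    divOf_frob_mul (ResidueField A) ℓ N _ hyt0]

/-- `r_* ∘ T_ℓ`. -/
def esG (r : Place Kb (Fb N) →
    Place (ResidueField A) (modularFunctionFieldFullC (ResidueField A) N)) :
    Divisor Kb (Fb N) →+
      Divisor (ResidueField A) (modularFunctionFieldFullC (ResidueField A) N) :=
  (Finsupp.mapDomain.addMonoidHom r).comp (heckeDiv N ℓ)

/-- `(σ_* + ℓ σ_*⁻¹) ∘ r_*`. -/
def esH (r : Place Kb (Fb N) →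
    Place (ResidueField A) (modularFunctionFieldFullC (ResidueField A) N)) :
    Divisor Kb (Fb N) →+
      Divisor (ResidueField A) (modularFunctionFieldFullC (ResidueField A) N) :=
  AddMonoidHom.comp
    (DistribSMul.toAddMonoidHom
        (Divisor (ResidueField A) (modularFunctionFieldFullC (ResidueField A) N))
        (frobSL (ResidueField A) ℓ N) +
      ℓ • DistribSMul.toAddMonoidHom
        (Divisor (ResidueField A) (modularFunctionFieldFullC (ResidueField A) N))
        (frobSL (ResidueField A) ℓ N)⁻¹)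
    (Finsupp.mapDomain.addMonoidHom r)

theorem esG_apply (D : Divisor Kb (Fb N)) :
    esG N (ℓ := ℓ) A r D = Finsupp.mapDomain r (heckeDiv N ℓ D) := rfl

theorem esH_apply (D : Divisor Kb (Fb N)) :
    esH N (ℓ := ℓ) A r D = frobSL (ResidueField A) ℓ N • Finsupp.mapDomain r D +
      ℓ • ((frobSL (ResidueField A) ℓ N)⁻¹ • Finsupp.mapDomain r D) := rfl

theorem esG_eq_esH_of_mem (hPF : ProductFormula N ℓ) (hr : IsPlaceReductionModL A N r)
    {D : Divisor Kb (Fb N)} (hD : D ∈ integralPrincipalDivisors A (residue A) N) :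
    esG N (ℓ := ℓ) A r D = esH N (ℓ := ℓ) A r D := by
  obtain ⟨y0, hy, hyk, hne, hDy⟩ := hD
  have hDeq : D = divOf Kb (⟨coeffMap A.subtype y0, hy⟩ : Fb N) := (divOf_eq_of_forall hDy).symm
  rw [hDeq, esG_apply, esH_apply, mapDomain_heckeDiv_integral N A hPF hr y0 hy hyk hne,
    mapDomain_divOf_integral N A hr y0 hy hyk hne]

theorem esG_eq_esH_principal (hPF : ProductFormula N ℓ) (hr : IsPlaceReductionModL A N r)
    (hgen : PrincipalGeneratedByIntegral A (residue A) N) (f : Fb N) (hf : f ≠ 0) :
    esG N (ℓ := ℓ) A r (divOf Kb f) = esH N (ℓ := ℓ) A r (divOf Kb f) := by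
  have key : ∀ D ∈ AddSubgroup.closure (integralPrincipalDivisors A (residue A) N),
      esG N (ℓ := ℓ) A r D = esH N (ℓ := ℓ) A r D := by
    intro D hD
    induction hD using AddSubgroup.closure_induction with
    | mem E hE => exact esG_eq_esH_of_mem N A hPF hr hE
    | zero => rw [map_zero, map_zero]
    | add E E' _ _ hE hE' => rw [map_add, map_add, hE, hE']
    | neg E _ hE => rw [map_neg, map_neg, hE]
  exact key _ (hgen (divOf_mem_principal (K := Kb) hf))

end Main



/-! ### The congruence on divisors of degree zero and on `J₀(N)` -/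

section Main2

variable (N : ℕ) [NeZero N] {ℓ : ℕ} [hℓ : Fact ℓ.Prime] [NeZero ℓ]
variable (A : ValuationSubring Kb)
variable [CharP (ResidueField A) ℓ] [ExpChar (ResidueField A) ℓ] [PerfectRing (ResidueField A) ℓ]
variable {r : Place Kb (Fb N) →
  Place (ResidueField A) (modularFunctionFieldFullC (ResidueField A) N)}

/-- **Eichler–Shimura congruence on divisors of degree zero.** -/
theorem mapDomain_heckeDiv (hPF : ProductFormula N ℓ) (hr : IsPlaceReductionModL A N r)
    (hgen : PrincipalGeneratedByIntegral A (residue A) N)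
    (hFt : RiemannPkg (ResidueField A) (modularFunctionFieldFullC (ResidueField A) N))
    (D : Divisor Kb (Fb N)) (hD : Divisor.degree D = 0) :
    Finsupp.mapDomain r (heckeDiv N ℓ D) =
      frobSL (ResidueField A) ℓ N • Finsupp.mapDomain r D +
        ℓ • ((frobSL (ResidueField A) ℓ N)⁻¹ • Finsupp.mapDomain r D) := by
  haveI := hFt.principal
  have hdegr : ∀ X : Divisor Kb (Fb N),
      Divisor.degree (Finsupp.mapDomain r X) = Divisor.degree X :=
    fun X => degree_mapDomain_of_deg_eq hr.1 X
  have key := eq_of_eq_on_principal' (riemannPkg_bar N) hFt.deg_one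
    (esG N (ℓ := ℓ) A r) (esH N (ℓ := ℓ) A r) ?_ ?_
    (finrankAlong Kb (heckeBetaBar Kb N ℓ) : ℤ) (1 + (ℓ : ℤ)) ?_ ?_
    (fun f hf => esG_eq_esH_principal N A hPF hr hgen f hf) D hD
  · exact key
  · intro X hX
    rw [esG_apply]
    exact pushPlaces_nonneg r (heckeDiv_nonneg N ℓ hX)
  · intro X hX
    rw [esH_apply]
    have h1 := pushPlaces_nonneg r hX
    rw [pushPlaces_apply] at h1
    exact add_nonneg (semilinear_smul_divisor_nonneg _ h1) (nsmul_nonneg (semilinear_smul_divisor_nonneg _ h1) ℓ)
  · intro X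
    rw [esG_apply, hdegr, degree_heckeDiv]
  · intro X
    rw [esH_apply, map_add, map_nsmul, SemilinearAut.degree_smul, SemilinearAut.degree_smul,
      hdegr, nsmul_eq_mul]
    ring

/-- **Eichler–Shimura congruence for the Prelude's reduction map** (field (c) of
`Hecke/SpecFormal.lean`): `red ∘ T_ℓ = (σ_* + ℓ σ_*⁻¹) ∘ red` on `J₀(N)`. -/
theorem reductionModL_heckeOperatorBar (hPF : ProductFormula N ℓ)
    (hRI : ReductionInputsModL A N)
    (hFt : RiemannPkg (ResidueField A) (modularFunctionFieldFullC (ResidueField A) N))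
    (x : JZero N) :
    reductionModL A N (heckeOperatorBar N ⟨ℓ, hℓ.out⟩ x) =
      frobSL (ResidueField A) ℓ N • reductionModL A N x +
        ℓ • ((frobSL (ResidueField A) ℓ N)⁻¹ • reductionModL A N x) := by
  obtain ⟨D, rfl⟩ := Pic0.mk_surjective x
  have hr := isPlaceReductionModL_placeReductionModL hRI
  have hdiv := mapDomain_heckeDiv N A hPF hr hRI.choose_spec.2 hFt (D : Divisor Kb (Fb N))
    (Divisor.mem_degZero.mp D.2)
  rw [heckeOperatorBar_mk, reductionModL_mk hRI, reductionModL_mk hRI,
    SemilinearAut.pic0_smul_mk, SemilinearAut.pic0_smul_mk]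
  have hn : ∀ E : Divisor.degZero (K := ResidueField A)
      (F := modularFunctionFieldFullC (ResidueField A) N),
      ℓ • Pic0.mk E = Pic0.mk (ℓ • E) := fun E => rfl
  rw [hn, ← Pic0.mk_add]
  refine congrArg Pic0.mk (Subtype.ext ?_)
  exact hdiv

end Main2


end Fermat.Agent.ES
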