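import Mathlib
import Fermat.Agent.ES.Assembly
import Fermat.Agent.ES.ProductFormula
import Fermat.Agent.Val.GaloisModLFinal
import Fermat.Agent.Hecke.SpecFormal

/-!
# S37 (M5): `SpecializationExists` for `J₀(N)` from the genus equality alone

All nodes of the S37 programme are plugged into `Hecke.specializationExists_JZero_of_reductionData`
(F0) with

* `Jt := JZeroC k N`, `red := reductionModL A N` (the Prelude's reduction map),
* `Φ := coeffPic0Hom k N (frobeniusEquiv k ℓ)`, `Ψ := ℓ • coeffPic0Hom k N (frobeniusEquiv k ℓ).symm`,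
* (a), (b) : `Val/GaloisModLFinal.lean` (M3);
* (c) : `ES/Assembly.lean` (M4) with `ES.productFormula`;
* (e) : `smul_coeffPic0Hom_symm_apply`;
* (d) : `Hecke/RedInputs.lean` (S18 through `Red.s18_of_gen`).

The only remaining hypothesis is the equality of genera `g(F̃_N) = g(F̄_N)` at every prime
`ℓ ∤ N` and every valuation subring `A` of `ℚ̄` over `ℓ` (the output of L-GEN).
-/

set_option autoImplicit false
set_option linter.style.haveILetI false

noncomputable section
namespace Fermat.Agent.ES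

open AlgebraicCurve ModularCurve IsLocalRing Fermat.Agent.X0 Fermat.Agent.Hecke
  Fermat.Agent.Val Fermat.Agent.Red Fermat.Agent.Val.GaloisModL

set_option synthInstance.maxHeartbeats 400000
set_option maxHeartbeats 1000000

/-- The genus equality at all places over primes not dividing `N` (output of L-GEN). -/
def GenusEqAll (N : ℕ) [NeZero N] : Prop :=
  ∀ ℓ : ℕ, ℓ.Prime → ¬ ℓ ∣ N → ∀ A : ValuationSubring (AlgebraicClosure ℚ), A.LiesOverPrime ℓ →
    genusFF (ResidueField A) (modularFunctionFieldFullC (ResidueField A) N) =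
      genusFF (AlgebraicClosure ℚ) (modularFunctionFieldBar N)

/-- The reduction data of `Hecke/SpecFormal.lean` at one prime `ℓ ∤ N p`, from the genus
equality. -/
theorem exists_reductionData_of_genus (N p : ℕ) [NeZero N] {ℓ : ℕ} (hℓ : ℓ.Prime)
    (hNp : ¬ ℓ ∣ N * p) (A : ValuationSubring (AlgebraicClosure ℚ)) (hA : A.LiesOverPrime ℓ)
    (hg : genusFF (ResidueField A) (modularFunctionFieldFullC (ResidueField A) N) =
      genusFF (AlgebraicClosure ℚ) (modularFunctionFieldBar N))
    (s0 : AlgebraicClosure ℚ ≃ₐ[ℚ] AlgebraicClosure ℚ) (hs0 : A.IsFrobeniusAt s0 ℓ) :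
    ∃ (Jt : Type) (_ : AddCommGroup Jt) (red : JZero N →+ Jt) (Φ Ψ : Jt →+ Jt),
      (∀ i ∈ A.inertiaSubgroupIn ℚ, ∀ x : JZero N, red (i • x) = red x) ∧
      (∀ x : JZero N, red (s0 • x) = Φ (red x)) ∧
      (∀ x : JZero N, red (heckeOperatorBar N ⟨ℓ, hℓ⟩ x) = Φ (red x) + Ψ (red x)) ∧
      (∀ y : Jt, Ψ (Φ y) = ℓ • y) ∧
      (∀ x : JZero N, (∃ n : ℕ, p ^ n • x = 0) → red x = 0 → x = 0) := by
  haveI : Fact ℓ.Prime := ⟨hℓ⟩
  haveI : NeZero ℓ := ⟨hℓ.ne_zero⟩
  have hℓN : ¬ ℓ ∣ N := fun h => hNp (Dvd.dvd.mul_right h p)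
  have hℓp : ¬ ℓ ∣ p := fun h => hNp (Dvd.dvd.mul_left h N)
  haveI : CharP (ResidueField A) ℓ := charP_residueField_of_liesOverPrime A hA
  haveI : ExpChar (ResidueField A) ℓ := expChar_residueField A hA
  haveI : PerfectRing (ResidueField A) ℓ := perfectRing_residueField A hA
  have hRI : ReductionInputsModL A N := reductionInputsModL_of_genus N hℓN A hA hg
  refine ⟨JZeroC (ResidueField A) N, inferInstance, reductionModL A N,
    coeffPic0Hom (ResidueField A) N (frobeniusEquiv (ResidueField A) ℓ),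
    ℓ • coeffPic0Hom (ResidueField A) N (frobeniusEquiv (ResidueField A) ℓ).symm,
    reductionModL_inertia N hℓN A hA hRI,
    fun x => reductionModL_frobenius_smul N hℓN A hA hRI hs0 x, fun x => ?_,
    fun y => smul_coeffPic0Hom_symm_apply N _ _ ℓ y,
    fun x hx h0 => reductionModL_injective_ppow N hℓN A hA hg hℓp x hx h0⟩
  exact reductionModL_heckeOperatorBar N A (productFormula hℓ hℓN) hRI
    (riemannPkg_modL_residueField N hℓN A hA) x

/-- **S37 from the genus equality** (M5): the Eichler–Shimura package `SpecializationExists` for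
`J₀(N)`. -/
theorem specializationExists_of_genusEqAll (N p : ℕ) [NeZero N]
    (hcomm : HeckeOperatorsCommuteBar N) (hg : GenusEqAll N) :
    letI := heckeModuleBar N
    ∀ (_ : SMulCommClass (AlgebraicClosure ℚ ≃ₐ[ℚ] AlgebraicClosure ℚ) HeckeAlg (JZero N)),
      SpecializationExists (K := ℚ) (L := AlgebraicClosure ℚ) N p (JZero N) :=
  specializationExists_JZero_of_reductionData.{0} N p hcomm fun ℓ hℓ hNp A hA s0 hs0 =>
    exists_reductionData_of_genus N p hℓ hNp A hA
      (hg ℓ hℓ (fun h => hNp (Dvd.dvd.mul_right h p)) A hA) s0 hs0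

end Fermat.Agent.ES
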