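import Fermat.Agent.Igusa.ModEqData

/-!
# S37 (M4), node ES-P, part I: roots of modular equations in Puiseux series

`K` a field, `ι : K((t)) →+* E` a ring hom into a field.  For modular equation data `d` for a prime
`p` (`Igusa/ModEqData`), the roots in `E` of `Φ_p(X, ι j(c^p t^{np}))` are exactly
`ι j(c^{p²} t^{np²})` and `ι j(ζ^b c t^n)`, `b < p` (`ev2_eq_zero_iff`).

* `ev2 κ Φ a b`: evaluation of a two-variable polynomial `Φ ∈ K[Y][X]` at `X = a`, `Y = b` in a
  ring `R` with structure map `κ : K →+* R`; naturality `map_ev2`.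
* `Jz c m`: the series `j(c t^m)` without the `NeZero` instance argument.
-/

set_option autoImplicit false
set_option linter.unusedSectionVars false
set_option linter.style.haveILetI false

noncomputable section

namespace Fermat.Agent.ES

open Polynomial HahnSeries ModularCurve Fermat.Agent.Igusa

section Ev2

variable {K : Type*} [CommRing K]

/-- Evaluation of `Φ ∈ K[Y][X]` at `X = a`, `Y = b`. -/
def ev2 {R : Type*} [CommRing R] (κ : K →+* R) (Φ : K[X][X]) (a b : R) : R :=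
  Polynomial.eval₂ (Polynomial.eval₂RingHom κ b) a Φ

theorem map_ev2 {R S : Type*} [CommRing R] [CommRing S] (f : R →+* S) (κ : K →+* R)
    (Φ : K[X][X]) (a b : R) : f (ev2 κ Φ a b) = ev2 (f.comp κ) Φ (f a) (f b) := by
  unfold ev2
  rw [Polynomial.hom_eval₂]
  congr 1
  apply Polynomial.ringHom_ext
  · intro r
    simp
  · simp

/-- Relation with `Igusa.evY`. -/
theorem ev2_eq_eval_evY {E : Type*} [CommRing E] (ι : LaurentSeries K →+* E) (Φ : K[X][X])
    (z : E) (y : LaurentSeries K) :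
    ev2 (ι.comp (HahnSeries.C : K →+* LaurentSeries K)) Φ z (ι y) =
      ((evY y Φ).map ι).eval z := by
  unfold ev2
  rw [evY_apply, Polynomial.map_map, Polynomial.eval_map]
  congr 1
  apply Polynomial.ringHom_ext
  · intro r
    simp
  · simp

theorem ev2_laurent (Φ : K[X][X]) (x y : LaurentSeries K) :
    ev2 (HahnSeries.C : K →+* LaurentSeries K) Φ x y = (evY y Φ).eval x := by
  have h := ev2_eq_eval_evY (RingHom.id (LaurentSeries K)) Φ x y
  simpa using h

end Ev2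

section Jz

variable {K : Type*} [CommRing K]

/-- `j(c t^m)` (junk value `0` for `m = 0`). -/
def Jz (c : Kˣ) (m : ℕ) : LaurentSeries K :=
  if h : m = 0 then 0 else @J K _ c m ⟨h⟩

theorem Jz_eq (c : Kˣ) (m : ℕ) [NeZero m] : Jz c m = J c m := by
  unfold Jz
  rw [dif_neg (NeZero.ne m)]

theorem order_Jz [Nontrivial K] (c : Kˣ) {m : ℕ} (hm : m ≠ 0) : (Jz c m).order = -(m : ℤ) := by
  haveI : NeZero m := ⟨hm⟩
  rw [Jz_eq, order_J]

theorem Jz_ne_zero [Nontrivial K] (c : Kˣ) {m : ℕ} (hm : m ≠ 0) : Jz c m ≠ 0 := by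
  haveI : NeZero m := ⟨hm⟩
  rw [Jz_eq]
  exact J_ne_zero c m

theorem Jz_eq_Jz_iff (c c' : Kˣ) {m : ℕ} (hm : m ≠ 0) : Jz c m = Jz c' m ↔ c = c' := by
  haveI : NeZero m := ⟨hm⟩
  rw [Jz_eq, Jz_eq, J_eq_J_iff]

/-- Series `j(c t^m)`, `j(c' t^{m'})` with `m ≠ m'` are different. -/
theorem Jz_ne_of_ne [Nontrivial K] (c c' : Kˣ) {m m' : ℕ} (hm : m ≠ 0) (hm' : m' ≠ 0)
    (h : m ≠ m') : Jz c m ≠ Jz c' m' := by
  intro he
  have := congrArg HahnSeries.order he
  rw [order_Jz c hm, order_Jz c' hm'] at this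
  omega

theorem subst_Jz (c : Kˣ) (m : ℕ) [NeZero m] (c' : Kˣ) {m' : ℕ} (hm' : m' ≠ 0) :
    subst c m (Jz c' m') = Jz (c' * c ^ m') (m * m') := by
  haveI : NeZero m' := ⟨hm'⟩
  rw [Jz_eq, Jz_eq, subst_J]

theorem qExpand_Jz (n : ℕ) [NeZero n] (c : Kˣ) {m : ℕ} (hm : m ≠ 0) :
    qExpand K n (Jz c m) = Jz c (n * m) := by
  haveI : NeZero m := ⟨hm⟩
  rw [Jz_eq, Jz_eq, qExpand_J]

theorem Jz_one_eq_jqNModC (m : ℕ) [NeZero m] : Jz (1 : Kˣ) m = jqNModC K m := by
  rw [Jz_eq, J_one_unit_eq_jqNModC]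

end Jz

section Roots

variable {K : Type*} [Field K] {E : Type*} [Field E] (ι : LaurentSeries K →+* E)
variable {p : ℕ} [NeZero p] {ζ : Kˣ} {pinv : K} (d : ModEqData K p ζ pinv)

/-- **Roots of the modular equation in Puiseux series**: the roots of `Φ_p(X, j(c^p t^{np}))` are
`j(c^{p²} t^{np²})` and `j(ζ^b c t^n)`, `b < p`. -/
theorem ev2_eq_zero_iff (c : Kˣ) {n : ℕ} (hn : n ≠ 0) (z : E) :
    ev2 (ι.comp (HahnSeries.C : K →+* LaurentSeries K)) d.Phi z (ι (Jz (c ^ p) (n * p))) = 0 ↔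
      z = ι (Jz (c ^ (p * p)) (n * (p * p))) ∨
        ∃ b ∈ Finset.range p, z = ι (Jz (ζ ^ b * c) n) := by
  haveI : NeZero n := ⟨hn⟩
  rw [ev2_eq_eval_evY, Jz_eq, d.me1_subst c n, Polynomial.map_mul, Polynomial.eval_mul,
    mul_eq_zero, Polynomial.map_prod, Polynomial.eval_prod, Finset.prod_eq_zero_iff, Jz_eq]
  simp only [Polynomial.map_sub, Polynomial.map_X, Polynomial.map_C, Polynomial.eval_sub,
    Polynomial.eval_X, Polynomial.eval_C, sub_eq_zero, Jz_eq]

end Roots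

section Tower

variable {K : Type*} [Field K] {E : Type*} [Field E] (ι : LaurentSeries K →+* E)
variable {N ℓ M : ℕ}

/-- `x ^ m = x` if `x ^ ℓ = 1` and `m ≡ 1 mod ℓ`. -/
theorem pow_eq_self_of_mod {G : Type*} [Monoid G] {x : G} {ℓ m : ℕ}
    (hx : x ^ ℓ = 1) (hm : m % ℓ = 1) : x ^ m = x := by
  rw [pow_eq_pow_mod m hx, hm, pow_one]

/-- **Common-root induction.**  Let `z d ∈ E` (`d ∣ N`) satisfy `Φ_ℓ(z d, j(t^{dMℓ})) = 0` and
`Φ_p(z (dp), z d) = 0` for all prime steps `d → dp` inside the divisors of `N` (`ℓ ∤ N ∣ M`).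
Then either `z d = j(t^{dMℓ²})` for all `d`, or there is `b < ℓ` with `z d = j((ζ^b t^M)^d)` for
all `d`. -/
theorem tower_classification (hℓ : ℓ.Prime) (hℓN : ¬ ℓ ∣ N) (hNM : N ∣ M) (hM : M ≠ 0)
    {ζ : Kˣ} {ℓinv : K} (hζ : IsPrimitiveRoot ζ ℓ) [NeZero ℓ] (dℓ : ModEqData K ℓ ζ ℓinv)
    (Ph : ℕ → K[X][X])
    (hPh : ∀ p (hp : p.Prime), p ∣ N → ∃ (ζp : Kˣ) (pinv : K)
      (dp : @ModEqData K _ p ⟨hp.ne_zero⟩ ζp pinv),
        @ModEqData.Phi K _ p ⟨hp.ne_zero⟩ ζp pinv dp = Ph p)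
    (z : ℕ → E)
    (hR1 : ∀ d, d ∣ N → ev2 (ι.comp (HahnSeries.C : K →+* LaurentSeries K)) dℓ.Phi (z d)
      (ι (Jz 1 (d * M * ℓ))) = 0)
    (hR2 : ∀ d p, p.Prime → d * p ∣ N →
      ev2 (ι.comp (HahnSeries.C : K →+* LaurentSeries K)) (Ph p) (z (d * p)) (z d) = 0) :
    (∀ d, d ∣ N → z d = ι (Jz 1 (d * M * (ℓ * ℓ)))) ∨
      ∃ b ∈ Finset.range ℓ, ∀ d, d ∣ N → z d = ι (Jz ((ζ ^ b) ^ d) (d * M)) := by
  have hN : N ≠ 0 := fun h => hM (by rw [h] at hNM; exact zero_dvd_iff.mp hNM)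
  have hℓ0 : ℓ ≠ 0 := hℓ.ne_zero
  have hιinj : Function.Injective ι := ι.injective
  -- the candidates from `Φ_ℓ`
  have hcand : ∀ d, d ∣ N → z d = ι (Jz 1 (d * M * (ℓ * ℓ))) ∨
      ∃ b ∈ Finset.range ℓ, z d = ι (Jz (ζ ^ b) (d * M)) := by
    intro d hd
    have hd0 : d ≠ 0 := fun h => hN (by rw [h] at hd; exact zero_dvd_iff.mp hd)
    have h := hR1 d hd
    have h1 : (Jz (1 : Kˣ) (d * M * ℓ)) = Jz ((1 : Kˣ) ^ ℓ) (d * M * ℓ) := by rw [one_pow]
    rw [h1, ev2_eq_zero_iff ι dℓ 1 (mul_ne_zero hd0 hM)] at h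
    simpa using h
  -- orders of the candidates
  have hord : ∀ d, d ∣ N → ∀ (c : Kˣ) (n : ℕ), n ≠ 0 → z d = ι (Jz c n) →
      n = d * M * (ℓ * ℓ) ∨ n = d * M := by
    intro d hd c n hn hz
    have hd0 : d ≠ 0 := fun h => hN (by rw [h] at hd; exact zero_dvd_iff.mp hd)
    rcases hcand d hd with h | ⟨b, -, h⟩
    · left
      by_contra hne
      exact Jz_ne_of_ne c 1 hn (mul_ne_zero (mul_ne_zero hd0 hM) (mul_ne_zero hℓ0 hℓ0)) hne
        (hιinj (hz.symm.trans h))
    · right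
      by_contra hne
      exact Jz_ne_of_ne c (ζ ^ b) hn (mul_ne_zero hd0 hM) hne (hιinj (hz.symm.trans h))
  -- the prime step
  have hstep : ∀ d p, p.Prime → d * p ∣ N → ∀ (c : Kˣ) (n : ℕ), n ≠ 0 →
      z d = ι (Jz (c ^ p) (n * p)) → z (d * p) = ι (Jz (c ^ (p * p)) (n * (p * p))) ∨
        (n = d * p * M * (ℓ * ℓ) ∨ n = d * p * M) := by
    intro d p hp hdp c n hn hz
    obtain ⟨ζp, pinv, dp, hdp'⟩ := hPh p hp (dvd_trans (dvd_mul_left p d) hdp)
    have h := hR2 d p hp hdp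
    rw [hz, ← hdp'] at h
    haveI : NeZero p := ⟨hp.ne_zero⟩
    rw [ev2_eq_zero_iff ι dp c hn] at h
    rcases h with h | ⟨a, -, h⟩
    · exact Or.inl h
    · right
      have := hord (d * p) hdp _ n hn h
      rcases this with h1 | h1
      · left; rw [h1]
      · right; rw [h1]
  rcases hcand 1 (one_dvd N) with h1 | ⟨b, hb, h1⟩
  · -- the identity embedding
    left
    intro d
    induction d using Nat.strong_induction_on with
    | _ d ih =>
      intro hd
      have hd0 : d ≠ 0 := fun h => hN (by rw [h] at hd; exact zero_dvd_iff.mp hd)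
      by_cases hd1 : d = 1
      · rw [hd1]; exact h1
      obtain ⟨p, hp, hpd⟩ := Nat.exists_prime_and_dvd hd1
      obtain ⟨d', rfl⟩ := hpd
      rw [mul_comm] at hd ⊢
      have hd'0 : d' ≠ 0 := fun h => hd0 (by rw [h, mul_zero])
      have hd'N : d' ∣ N := dvd_trans (dvd_mul_right d' p) hd
      have hlt : d' < p * d' := by
        have := hp.one_lt
        nlinarith [Nat.pos_of_ne_zero hd'0]
      have hz := ih d' hlt hd'N
      have hpN : p ∣ N := dvd_trans (dvd_mul_left p d') hd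
      obtain ⟨M', rfl⟩ : p ∣ M := dvd_trans hpN hNM
      have hM'0 : M' ≠ 0 := fun h => hM (by rw [h, mul_zero])
      have hpℓ : p ≠ ℓ := fun h => hℓN (h ▸ hpN)
      have hn : d' * M' * (ℓ * ℓ) ≠ 0 :=
        mul_ne_zero (mul_ne_zero hd'0 hM'0) (mul_ne_zero hℓ0 hℓ0)
      have e1 : d' * (p * M') * (ℓ * ℓ) = d' * M' * (ℓ * ℓ) * p := by ring
      have hz' : z d' = ι (Jz ((1 : Kˣ) ^ p) (d' * M' * (ℓ * ℓ) * p)) := by
        rw [one_pow, ← e1]; exact hz
      rcases hstep d' p hp hd 1 _ hn hz' with h | h | h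
      · rw [h, one_pow]
        congr 2
        ring
      · exfalso
        have hp1 := hp.one_lt
        have : d' * M' * (ℓ * ℓ) * 1 = d' * M' * (ℓ * ℓ) * (p * p) := by
          rw [mul_one]; conv_lhs => rw [h]
          ring
        have := Nat.eq_of_mul_eq_mul_left (Nat.pos_of_ne_zero hn) this
        nlinarith
      · exfalso
        have h2 : d' * M' * (ℓ * ℓ) = d' * M' * (p * p) := by
          conv_lhs => rw [h]
          ring
        have h3 := Nat.eq_of_mul_eq_mul_left (Nat.pos_of_ne_zero (mul_ne_zero hd'0 hM'0)) h2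
        have h4 : ℓ = p := by
          have := Nat.pow_left_injective (n := 2) (by norm_num)
            (show ℓ ^ 2 = p ^ 2 by rw [sq, sq]; exact h3)
          exact this
        exact hpℓ h4.symm
  · -- the conjugate embeddings
    right
    refine ⟨b, hb, ?_⟩
    have hxℓ : ∀ d : ℕ, ((ζ ^ b) ^ d) ^ ℓ = 1 := by
      intro d
      rw [← pow_mul, ← pow_mul, show b * (d * ℓ) = ℓ * (b * d) by ring, pow_mul, hζ.pow_eq_one,
        one_pow]
    intro d
    induction d using Nat.strong_induction_on with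
    | _ d ih =>
      intro hd
      have hd0 : d ≠ 0 := fun h => hN (by rw [h] at hd; exact zero_dvd_iff.mp hd)
      by_cases hd1 : d = 1
      · rw [hd1, pow_one, one_mul]
        rw [one_mul] at h1
        exact h1
      obtain ⟨p, hp, hpd⟩ := Nat.exists_prime_and_dvd hd1
      obtain ⟨d', rfl⟩ := hpd
      rw [mul_comm] at hd ⊢
      have hd'0 : d' ≠ 0 := fun h => hd0 (by rw [h, mul_zero])
      have hd'N : d' ∣ N := dvd_trans (dvd_mul_right d' p) hd
      have hlt : d' < p * d' := by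
        have := hp.one_lt
        nlinarith [Nat.pos_of_ne_zero hd'0]
      have hz := ih d' hlt hd'N
      have hpN : p ∣ N := dvd_trans (dvd_mul_left p d') hd
      obtain ⟨M', rfl⟩ : p ∣ M := dvd_trans hpN hNM
      have hM'0 : M' ≠ 0 := fun h => hM (by rw [h, mul_zero])
      have hpℓ : p ≠ ℓ := fun h => hℓN (h ▸ hpN)
      have hcop : Nat.Coprime p ℓ := (Nat.coprime_primes hp hℓ).mpr hpℓ
      obtain ⟨p', -, hp'⟩ := Nat.exists_mul_mod_eq_one_of_coprime hcop hℓ.one_lt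
      set c : Kˣ := ((ζ ^ b) ^ d') ^ p' with hc
      have hcp : c ^ p = (ζ ^ b) ^ d' := by
        rw [hc, ← pow_mul, mul_comm]
        exact pow_eq_self_of_mod (hxℓ d') hp'
      have hn : d' * M' ≠ 0 := mul_ne_zero hd'0 hM'0
      have e1 : d' * (p * M') = d' * M' * p := by ring
      have hz' : z d' = ι (Jz (c ^ p) (d' * M' * p)) := by
        rw [hcp, ← e1]; exact hz
      rcases hstep d' p hp hd c _ hn hz' with h | h | h
      · rw [h]
        have e2 : c ^ (p * p) = (ζ ^ b) ^ (d' * p) := by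
          rw [pow_mul, hcp, ← pow_mul]
        rw [e2]
        congr 2
        ring
      · exfalso
        have hp1 := hp.one_lt
        have hℓ1 := hℓ.one_lt
        have : d' * M' * 1 = d' * M' * (p * p * (ℓ * ℓ)) := by
          rw [mul_one]; conv_lhs => rw [h]
          ring
        have := Nat.eq_of_mul_eq_mul_left (Nat.pos_of_ne_zero hn) this
        have h4 : 2 * 2 ≤ p * p := Nat.mul_le_mul hp1 hp1
        have h5 : 1 * 1 ≤ ℓ * ℓ := Nat.mul_le_mul hℓ1.le hℓ1.le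
        have h6 := Nat.mul_le_mul h4 h5
        omega
      · exfalso
        have hp1 := hp.one_lt
        have : d' * M' * 1 = d' * M' * (p * p) := by
          rw [mul_one]; conv_lhs => rw [h]
          ring
        have := Nat.eq_of_mul_eq_mul_left (Nat.pos_of_ne_zero hn) this
        nlinarith

end Tower

end Fermat.Agent.ES
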