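import Fermat.Agent.ES.NormCongruence
import Fermat.Agent.Val.Deliverable

/-!
# S37 (M4), node (KN), unit form

The Kronecker norm congruence of `ES/NormCongruence.lean` for the units of the Gauss valuation
ring of `F̄_N` (language of L-VAL: `Val.OrthoData`, `Val.constRedBar`).

* `normCongruence_orthoData` : for orthonormal data `D` on `(F̄_N, F̃_N)` and a unit `f` of
  `D.valSubring`: `Nm_{F'/αF} (β f) ∈ D.valSubring` and its residue is
  `(res f)(q^ℓ) · σ (res f)`, `σ` the coefficientwise Frobenius;
* `normCongruence_constRedBar` : the same for `C := Val.constRedBar N hℓN A hA`.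
-/

set_option autoImplicit false
set_option linter.style.haveILetI false
set_option linter.unusedSectionVars false

noncomputable section

namespace Fermat.Agent.ES

open AlgebraicCurve ModularCurve HahnSeries Fermat.Agent.X0 Fermat.Agent.Hecke Fermat.Agent.Val

set_option synthInstance.maxHeartbeats 400000

section Unit

variable {N ℓ : ℕ} [NeZero N] [NeZero ℓ] [hℓ : Fact ℓ.Prime]
variable (A : ValuationSubring (AlgebraicClosure ℚ))

/-- **(KN), unit form, for orthonormal data.** -/
theorem normCongruence_orthoData (hPF : ProductFormula N ℓ)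
    [CharP (IsLocalRing.ResidueField A) ℓ] {n : ℕ}
    (D : OrthoData A (IsLocalRing.residue A) (modularFunctionFieldBar N)
      (modularFunctionFieldFullC (IsLocalRing.ResidueField A) N) n)
    (hπ : ∀ a : A, a ∈ IsLocalRing.maximalIdeal A → IsLocalRing.residue A a = 0)
    (f : D.valSubring) (hf : D.res hπ f ≠ 0) :
    ∃ h : normAlpha N ℓ (heckeBetaBar Kb N ℓ (f : Fb N)) ∈ D.valSubring,
      ((D.res hπ ⟨_, h⟩ : modularFunctionFieldFullC (IsLocalRing.ResidueField A) N) :
          LaurentSeries (IsLocalRing.ResidueField A)) =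
        qExpand (IsLocalRing.ResidueField A) ℓ
            ((D.res hπ f : modularFunctionFieldFullC (IsLocalRing.ResidueField A) N) :
              LaurentSeries (IsLocalRing.ResidueField A)) *
          coeffMap (frobenius (IsLocalRing.ResidueField A) ℓ)
            ((D.res hπ f : modularFunctionFieldFullC (IsLocalRing.ResidueField A) N) :
              LaurentSeries (IsLocalRing.ResidueField A)) := by
  classical
  obtain ⟨c, hcA, y₁, y₂, hc, hπc, h1F, h2F, h1k, h2k, hne1, hne2, h, hres⟩ :=
    D.exists_fraction_of_res_ne_zero hπ f hf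
  -- absorb the constant into the numerator
  set y₁' : LaurentSeries A := HahnSeries.C (⟨c, hcA⟩ : A) * y₁ with hy₁'
  have hι1 : aIota A y₁' = HahnSeries.C c * aIota A y₁ := by
    rw [hy₁', map_mul, aIota_C]
  have hr1 : aRed (IsLocalRing.residue A) y₁' = HahnSeries.C (IsLocalRing.residue A ⟨c, hcA⟩) * aRed (IsLocalRing.residue A) y₁ := by
    rw [hy₁', map_mul, aRed_C]
  have h1F' : aIota A y₁' ∈ modularFunctionFieldBar N := by
    rw [hι1]
    refine mul_mem ?_ h1F
    rw [HahnSeries.C_apply, ← algebraMap_laurentSeries_eq_single]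
    exact (modularFunctionFieldBar N).algebraMap_mem c
  have hfrac : ((f : Fb N) : LaurentSeries Kb) * aIota A y₂ = aIota A y₁' := by rw [hι1]; exact h
  have hresfrac : ((D.res hπ f : modularFunctionFieldFullC (IsLocalRing.ResidueField A) N) : LaurentSeries (IsLocalRing.ResidueField A)) * aRed (IsLocalRing.residue A) y₂ =
      aRed (IsLocalRing.residue A) y₁' := by rw [hr1]; exact hres
  -- the elements of `F̄_N`
  set g₁ : Fb N := ⟨aIota A y₁', h1F'⟩ with hg₁
  set g₂ : Fb N := ⟨aIota A y₂, h2F⟩ with hg₂
  have hg₂0 : g₂ ≠ 0 := by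
    intro h0
    exact aIota_ne_zero_of_aRed_ne_zero A (IsLocalRing.residue A) hne2 (congrArg Subtype.val h0)
  have hfg : (f : Fb N) * g₂ = g₁ := Subtype.ext hfrac
  -- (KN) for numerator and denominator
  obtain ⟨Y₁, hY₁, hY₁r⟩ := normCongruence A hPF g₁ y₁' rfl
  obtain ⟨Y₂, hY₂, hY₂r⟩ := normCongruence A hPF g₂ y₂ rfl
  have hfrobinj : Function.Injective (coeffMap (frobenius (IsLocalRing.ResidueField A) ℓ)) :=
    coeffMap_injective_of_injective _ (frobenius (IsLocalRing.ResidueField A) ℓ).injective
  have hY₂0 : aRed (IsLocalRing.residue A) Y₂ ≠ 0 := by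
    show coeffMap (IsLocalRing.residue A) Y₂ ≠ 0
    rw [hY₂r]
    refine mul_ne_zero ?_ ?_
    · exact fun h0 => hne2 (qExpand_injective ℓ (h0.trans (map_zero _).symm))
    · exact fun h0 => hne2 (hfrobinj (h0.trans (map_zero _).symm))
  -- multiplicativity of the norm
  have hnorm : normAlpha N ℓ (heckeBetaBar Kb N ℓ (f : Fb N)) *
      normAlpha N ℓ (heckeBetaBar Kb N ℓ g₂) = normAlpha N ℓ (heckeBetaBar Kb N ℓ g₁) := by
    rw [← normAlpha_mul, ← map_mul, hfg]
  have hnormS : ((normAlpha N ℓ (heckeBetaBar Kb N ℓ (f : Fb N)) : Fb N) : LaurentSeries Kb) *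
      aIota A Y₂ = aIota A Y₁ := by
    have := congrArg (fun x : Fb N => (x : LaurentSeries Kb)) hnorm
    simp only [MulMemClass.coe_mul] at this
    rw [← hY₁, ← hY₂] at this
    exact this
  have hmem : normAlpha N ℓ (heckeBetaBar Kb N ℓ (f : Fb N)) ∈ D.valSubring := by
    rw [OrthoData.mem_valSubring_iff]
    exact ⟨Y₁, Y₂, hY₂0, hnormS⟩
  refine ⟨hmem, ?_⟩
  have hmem' : ((normAlpha N ℓ (heckeBetaBar Kb N ℓ (f : Fb N)) : Fb N) : LaurentSeries Kb) ∈
      gaussRingA A (IsLocalRing.residue A) := hmem
  have hgr := gaussResA_eq A (IsLocalRing.residue A)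
    (⟨((normAlpha N ℓ (heckeBetaBar Kb N ℓ (f : Fb N)) : Fb N) : LaurentSeries Kb), hmem'⟩ :
      gaussRingA A (IsLocalRing.residue A)) hY₂0 hnormS
  have hresdiv : ((D.res hπ f : modularFunctionFieldFullC (IsLocalRing.ResidueField A) N) :
      LaurentSeries (IsLocalRing.ResidueField A)) =
      coeffMap (IsLocalRing.residue A) y₁' / coeffMap (IsLocalRing.residue A) y₂ := by
    exact eq_div_of_mul_eq hne2 hresfrac
  have hgoal : coeffMap (IsLocalRing.residue A) Y₁ / coeffMap (IsLocalRing.residue A) Y₂ =
      qExpand (IsLocalRing.ResidueField A) ℓ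
          (coeffMap (IsLocalRing.residue A) y₁' / coeffMap (IsLocalRing.residue A) y₂) *
        coeffMap (frobenius (IsLocalRing.ResidueField A) ℓ)
          (coeffMap (IsLocalRing.residue A) y₁' / coeffMap (IsLocalRing.residue A) y₂) := by
    rw [hY₁r, hY₂r, map_div₀, map_div₀, div_mul_div_comm]
  rw [hresdiv, ← hgoal]
  exact hgr

/-- **(KN), unit form, for the constant reduction `Val.constRedBar` of `F̄_N` at `A`.** -/
theorem normCongruence_constRedBar (hPF : ProductFormula N ℓ) (hℓN : ¬ ℓ ∣ N)
    (hA : A.LiesOverPrime ℓ) [CharP (IsLocalRing.ResidueField A) ℓ]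
    (f : (constRedBar N hℓN A hA).O) (hf : (constRedBar N hℓN A hA).res f ≠ 0) :
    ∃ h : normAlpha N ℓ (heckeBetaBar Kb N ℓ (f : Fb N)) ∈ (constRedBar N hℓN A hA).O,
      (((constRedBar N hℓN A hA).res ⟨_, h⟩ :
          modularFunctionFieldFullC (IsLocalRing.ResidueField A) N) :
          LaurentSeries (IsLocalRing.ResidueField A)) =
        qExpand (IsLocalRing.ResidueField A) ℓ
            (((constRedBar N hℓN A hA).res f :
              modularFunctionFieldFullC (IsLocalRing.ResidueField A) N) :
              LaurentSeries (IsLocalRing.ResidueField A)) *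
          coeffMap (frobenius (IsLocalRing.ResidueField A) ℓ)
            (((constRedBar N hℓN A hA).res f :
              modularFunctionFieldFullC (IsLocalRing.ResidueField A) N) :
              LaurentSeries (IsLocalRing.ResidueField A)) :=
  normCongruence_orthoData A hPF (orthoDataQbar A N hA hℓN) (residue_hπ A) f hf

end Unit

end Fermat.Agent.ES
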