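import Mathlib
import Fermat.Agent.ES.Plug
import Fermat.Agent.Good.GenusEqUncond
import Fermat.Agent.Good.GenTop

/-!
# S37 from the two lifting properties of L-GEN

`Good.LiftsFin` and `Good.LiftsInf` (the two Props to which S18 is reduced, `Good/GenTop.lean`)
at every prime `ℓ ∤ N` and every valuation subring `A` of `ℚ̄` over `ℓ` give the genus equality
`ES.GenusEqAll N` (`Good.genusFF_bar_le` + `Good.genusFF_modL_le_bar`), hence the frozen S37
statement (`ES.specializationExists_of_genusEqAll`).
-/

set_option autoImplicit false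
set_option linter.style.haveILetI false

noncomputable section
namespace Fermat.Agent.ES

open AlgebraicCurve ModularCurve IsLocalRing Fermat.Agent.Good

set_option synthInstance.maxHeartbeats 400000
set_option maxHeartbeats 1000000

/-- The two lifting properties of L-GEN at all places over primes not dividing `N`. -/
def LiftsAll (N : ℕ) [NeZero N] : Prop :=
  ∀ (ℓ : ℕ) [Fact ℓ.Prime] (hℓN : ¬ ℓ ∣ N) (A : ValuationSubring (AlgebraicClosure ℚ))
    (hA : A.LiesOverPrime ℓ), LiftsFin N hℓN A hA ∧ LiftsInf N hℓN A hA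

theorem genusEqAll_of_liftsAll (N : ℕ) [NeZero N] (h : LiftsAll N) : GenusEqAll N := by
  intro ℓ hℓ hℓN A hA
  haveI : Fact ℓ.Prime := ⟨hℓ⟩
  obtain ⟨h1, h2⟩ := h ℓ hℓN A hA
  exact le_antisymm (genusFF_modL_le_bar N hℓN A hA) (genusFF_bar_le N hℓN A hA h1 h2)

/-- **S37 from `LiftsFin` + `LiftsInf`** (same gate as S18). -/
theorem specializationExists_of_liftsAll (N p : ℕ) [NeZero N]
    (hcomm : HeckeOperatorsCommuteBar N) (h : LiftsAll N) :
    letI := heckeModuleBar N
    ∀ (_ : SMulCommClass (AlgebraicClosure ℚ ≃ₐ[ℚ] AlgebraicClosure ℚ) HeckeAlg (JZero N)),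
      SpecializationExists (K := ℚ) (L := AlgebraicClosure ℚ) N p (JZero N) :=
  specializationExists_of_genusEqAll N p hcomm (genusEqAll_of_liftsAll N h)

end Fermat.Agent.ES
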