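import Fermat.Agent.ES.PuiseuxRoots
import Fermat.Agent.ES.Generators
import Fermat.Agent.ES.NormLabels
import Fermat.Agent.ES.ModEqKb
import Fermat.Agent.Hecke.HeckeInputs
import Fermat.Agent.Hecke.HeckeDegrees

/-!
# Program J, node (J4-PF): the product formula for the Hecke norm over a general field

Generic-field port of `ES/ProductFormula.lean` (`S37`, node ES-P).  `L` is any field of
characteristic zero, `FL L N = L·F_N ⊂ L((q))` (`laurentBaseChange L (modularFunctionFieldFull N)`),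
`α = heckeAlphaBar L N ℓ`, `β = heckeBetaBar L N ℓ`, `ℓ ∤ N` prime.  Then

  `(Nm_{F'/αF} (β y))(q^ℓ) = y(q^{ℓ²}) · ∏_{b<ℓ} y(ζ^b q)`   (`Gen.productFormula`)

under the hypotheses: modular equation data over `L` for all primes (`HasModEqData L`; holds for
`L = ℂ`, `Gen.hasModEqData_complex`, and `L = ℚ̄`), `α` finite of degree `ℓ + 1`
(which follows from `[FL L M : L(j)] = ψ(M)` for `M = N, Nℓ`: `Gen.productFormula_of_isSepVar`).
-/

set_option autoImplicit false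
set_option linter.unusedSectionVars false
set_option linter.style.haveILetI false

noncomputable section

namespace Fermat.Agent.ES.Gen

open Polynomial HahnSeries ModularCurve AlgebraicCurve Fermat.Agent.Igusa Fermat.Agent.X0
  Fermat.Agent.Hecke Fermat.Agent.ES

variable {L : Type*} [Field L] [Algebra ℚ L]

/-- `L·F_N ⊂ L((q))`. -/
abbrev FL (L : Type*) [Field L] [Algebra ℚ L] (N : ℕ) : Type _ :=
  ↥(laurentBaseChange L (modularFunctionFieldFull N))

/-! ### Constants -/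

section Constants

theorem algebraMap_laurent_eq_C (a : L) :
    algebraMap L (LaurentSeries L) a = HahnSeries.C a := by
  rw [algebraMap_laurentSeries_eq_single, HahnSeries.C_apply]

theorem qExpand_C (m : ℕ) [NeZero m] (a : L) :
    qExpand L m (HahnSeries.C a) = HahnSeries.C a := by
  rw [HahnSeries.C_apply, qExpand_single, mul_zero]

end Constants

/-! ### Relations between the generators -/

section Relations

variable {N' : ℕ} [NeZero N']

/-- A polynomial relation between two elements of `F̄_{N'}` can be checked after `q ↦ q^m`. -/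
theorem ev2_eq_zero_of_qExpand (m : ℕ) [NeZero m] (Φ : L[X][X]) (x y : FL L N')
    (h : ev2 (HahnSeries.C : L →+* LaurentSeries L) Φ (qExpand L m (x : LaurentSeries L))
      (qExpand L m (y : LaurentSeries L)) = 0) :
    ev2 (algebraMap L (FL L N')) Φ x y = 0 := by
  let emb : FL L N' →+* LaurentSeries L :=
    (qExpand L m).comp (algebraMap (FL L N') (LaurentSeries L))
  have hinj : Function.Injective emb := emb.injective
  apply hinj
  rw [map_zero, map_ev2]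
  have hκ : emb.comp (algebraMap L (FL L N')) = (HahnSeries.C : L →+* LaurentSeries L) := by
    ext a : 1
    show qExpand L m (algebraMap L (LaurentSeries L) a) = HahnSeries.C a
    rw [algebraMap_laurent_eq_C, qExpand_C]
  rw [hκ]
  exact h

/-- The modular equation `Φ_p(j(q^{np}), j(q^n)) = 0` inside `F̄_{N'}`. -/
theorem rel_modEq {p : ℕ} [NeZero p] {ζ : Lˣ} {pinv : L} (dp : ModEqData L p ζ pinv)
    (x y : FL L N') {n : ℕ} (hn : n ≠ 0) (hx : (x : LaurentSeries L) = Jz 1 (n * p))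
    (hy : (y : LaurentSeries L) = Jz 1 n) :
    ev2 (algebraMap L (FL L N')) dp.Phi x y = 0 := by
  apply ev2_eq_zero_of_qExpand p
  have hp : p ≠ 0 := NeZero.ne p
  rw [hx, hy, qExpand_Jz p 1 (mul_ne_zero hn hp), qExpand_Jz p 1 hn]
  have h := (ev2_eq_zero_iff (RingHom.id (LaurentSeries L)) dp 1 hn
    (Jz ((1 : Lˣ) ^ (p * p)) (n * (p * p)))).mpr (Or.inl rfl)
  simp only [one_pow, RingHom.id_comp, RingHom.id_apply] at h
  have e1 : p * (n * p) = n * (p * p) := by ring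
  have e2 : p * n = n * p := by ring
  rw [e1, e2]
  exact h

end Relations

/-! ### The generators of `F̄_N` and `F̄_{Nℓ}` -/

section Gens

variable (N ℓ : ℕ) [NeZero N] [NeZero ℓ]

/-- `j(q^d)` as an element of `F̄_N` (junk value `0` unless `d ∣ N`). -/
def jGenZ (L : Type*) [Field L] [Algebra ℚ L] (N : ℕ) [NeZero N] (d : ℕ) : FL L N :=
  if h : d ∣ N then
    haveI : NeZero d := ⟨fun h0 => NeZero.ne N (by rw [h0] at h; exact zero_dvd_iff.mp h)⟩
    jGen N d h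
  else 0

theorem jGenZ_eq {d : ℕ} [NeZero d] (hd : d ∣ N) : jGenZ L N d = jGen (L := L) N d hd := by
  unfold jGenZ
  rw [dif_pos hd]

theorem coe_jGenZ {d : ℕ} (hd : d ∣ N) : ((jGenZ L N d : FL L N) : LaurentSeries L) = Jz 1 d := by
  haveI : NeZero d := ⟨fun h0 => NeZero.ne N (by rw [h0] at hd; exact zero_dvd_iff.mp hd)⟩
  rw [jGenZ_eq (L := L) N hd, coe_jGen, Jz_one_eq_jqNModC]

theorem coe_alpha_jGenZ {d : ℕ} (hd : d ∣ N) :
    ((heckeAlphaBar L N ℓ (jGenZ L N d) : FL L (N * ℓ)) : LaurentSeries L) = Jz 1 d := by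
  rw [coe_heckeAlphaBar, coe_jGenZ N hd]

theorem coe_beta_jGenZ {d : ℕ} (hd : d ∣ N) :
    ((heckeBetaBar L N ℓ (jGenZ L N d) : FL L (N * ℓ)) : LaurentSeries L) = Jz 1 (ℓ * d) := by
  have hd0 : d ≠ 0 := fun h0 => NeZero.ne N (by rw [h0] at hd; exact zero_dvd_iff.mp hd)
  rw [coe_heckeBetaBar, coe_jGenZ N hd, qExpand_Jz ℓ 1 hd0]

/-- Every generator `j(q^e)`, `e ∣ Nℓ`, of `F̄_{Nℓ}` is `α (j(q^d))` or `β (j(q^d))`, `d ∣ N`. -/
theorem jGen_mul_eq (hℓ : ℓ.Prime) (e : ℕ) [NeZero e] (he : e ∣ N * ℓ) :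
    (∃ d, d ∣ N ∧ jGen (L := L) (N * ℓ) e he = heckeAlphaBar L N ℓ (jGenZ L N d)) ∨
      ∃ d, d ∣ N ∧ jGen (L := L) (N * ℓ) e he = heckeBetaBar L N ℓ (jGenZ L N d) := by
  by_cases hℓe : ℓ ∣ e
  · right
    obtain ⟨d, rfl⟩ := hℓe
    have hd : d ∣ N := by
      rw [mul_comm N ℓ] at he
      exact Nat.dvd_of_mul_dvd_mul_left hℓ.pos he
    refine ⟨d, hd, Subtype.ext ?_⟩
    rw [coe_beta_jGenZ N ℓ hd, coe_jGen, Jz_one_eq_jqNModC]
  · left
    have hd : e ∣ N := ((Nat.Prime.coprime_iff_not_dvd hℓ).mpr hℓe).symm.dvd_of_dvd_mul_right he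
    refine ⟨e, hd, Subtype.ext ?_⟩
    rw [coe_alpha_jGenZ N ℓ hd, coe_jGen, Jz_one_eq_jqNModC]

end Gens

/-! ### The product formula -/

section Main

variable {N ℓ : ℕ} [NeZero N] [NeZero ℓ]

theorem qExpand_qExpand (m n : ℕ) [NeZero m] [NeZero n] (f : LaurentSeries L) :
    qExpand L m (qExpand L n f) = qExpand L (m * n) f := by
  rw [← subst_one_unit, ← subst_one_unit, ← subst_one_unit, subst_subst, one_pow, one_mul]

/-- The ambient algebraically closed field. -/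
abbrev EΩ (L : Type*) [Field L] : Type _ := AlgebraicClosure (LaurentSeries L)

/-- `K((t)) → Ω`. -/
def ιΩ : LaurentSeries L →+* EΩ L := algebraMap (LaurentSeries L) (EΩ L)

theorem ιΩ_injective : Function.Injective (ιΩ (L := L)) := (ιΩ (L := L)).injective

variable (N ℓ)

/-- The structure map `F̄_N → Ω`, `y(q) ↦ y(t^{Nℓ})`. -/
def strΩ (L : Type*) [Field L] [Algebra ℚ L] (N ℓ : ℕ) [NeZero N] [NeZero ℓ] : FL L N →+* EΩ L :=
  ιΩ.comp ((qExpand L (N * ℓ)).comp (algebraMap (FL L N) (LaurentSeries L)))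

theorem strΩ_apply (x : FL L N) : strΩ L N ℓ x = ιΩ (qExpand L (N * ℓ) (x : LaurentSeries L)) := rfl

/-- The candidate restrictions to `β F̄_N` of the embeddings: `y ↦ y(t^{Nℓ²})` and
`y ↦ y(ζ^b t^N)`. -/
def substΩ (ζ : Lˣ) : Option (Fin ℓ) → (FL L N →+* EΩ L) := fun i =>
  i.elim (ιΩ.comp ((qExpand L (N * (ℓ * ℓ))).comp (algebraMap (FL L N) (LaurentSeries L))))
    (fun b => ιΩ.comp ((subst (ζ ^ (b : ℕ)) N).comp (algebraMap (FL L N) (LaurentSeries L))))

theorem substΩ_none (ζ : Lˣ) (x : FL L N) :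
    substΩ N ℓ ζ none x = ιΩ (qExpand L (N * (ℓ * ℓ)) (x : LaurentSeries L)) := rfl

theorem substΩ_some (ζ : Lˣ) (b : Fin ℓ) (x : FL L N) :
    substΩ N ℓ ζ (some b) x = ιΩ (subst (ζ ^ (b : ℕ)) N (x : LaurentSeries L)) := rfl

theorem prod_substΩ (ζ : Lˣ) (y : FL L N) :
    ∏ i, substΩ N ℓ ζ i y = ιΩ (qExpand L N (qExpand L (ℓ * ℓ) (y : LaurentSeries L) *
      ∏ b ∈ Finset.range ℓ, scale (ζ ^ b) (y : LaurentSeries L))) := by
  rw [Fintype.prod_option, substΩ_none, map_mul, map_mul, map_prod, map_prod, qExpand_qExpand,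
    ← Fin.prod_univ_eq_prod_range
      (fun b => ιΩ (qExpand L N (scale (ζ ^ b) (y : LaurentSeries L))))]
  congr 1

theorem substΩ_algebraMap (ζ : Lˣ) (i : Option (Fin ℓ)) (a : L) :
    substΩ N ℓ ζ i (algebraMap L (FL L N) a) = ιΩ (HahnSeries.C a) := by
  have h3 : ((algebraMap L (FL L N) a : FL L N) : LaurentSeries L) = HahnSeries.C a :=
    algebraMap_laurent_eq_C a
  rcases i with _ | b
  · rw [substΩ_none, h3, qExpand_C]
  · rw [substΩ_some, h3, subst_C]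

variable {N ℓ}

section Embeddings

variable [algF : Algebra (FL L N) (FL L (N * ℓ))] [algE : Algebra (FL L N) (EΩ L)]
  (hF : algebraMap (FL L N) (FL L (N * ℓ)) = (heckeAlphaBar L N ℓ).toRingHom)
  (hE : algebraMap (FL L N) (EΩ L) = strΩ L N ℓ)

include hF hE

theorem tau_alpha (τ : FL L (N * ℓ) →ₐ[FL L N] (EΩ L)) (x : FL L N) :
    τ (heckeAlphaBar L N ℓ x) = ιΩ (qExpand L (N * ℓ) (x : LaurentSeries L)) := by
  have h := τ.commutes x
  rw [hF, hE, strΩ_apply] at h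
  exact h

theorem tau_const (τ : FL L (N * ℓ) →ₐ[FL L N] (EΩ L)) :
    (τ : FL L (N * ℓ) →+* EΩ L).comp (algebraMap L (FL L (N * ℓ))) =
      ιΩ.comp (HahnSeries.C : L →+* LaurentSeries L) := by
  ext a : 1
  have h1 : algebraMap L (FL L (N * ℓ)) a = heckeAlphaBar L N ℓ (algebraMap L (FL L N) a) :=
    ((heckeAlphaBar L N ℓ).commutes a).symm
  have h3 : ((algebraMap L (FL L N) a : FL L N) : LaurentSeries L) = HahnSeries.C a :=
    algebraMap_laurent_eq_C a
  rw [RingHom.comp_apply, RingHom.comp_apply, h1]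
  have := tau_alpha hF hE τ (algebraMap L (FL L N) a)
  rw [h3, qExpand_C] at this
  exact this

/-- Classification of the embeddings. -/
theorem exists_label (hℓ : ℓ.Prime) (hℓN : ¬ ℓ ∣ N)
    {ζ : Lˣ} {ℓinv : L} (hζ : IsPrimitiveRoot ζ ℓ) (dℓ : ModEqData L ℓ ζ ℓinv)
    (Ph : ℕ → L[X][X])
    (hPh : ∀ p (hp : p.Prime), p ∣ N → ∃ (ζp : Lˣ) (pinv : L)
      (dp : @ModEqData L _ p ⟨hp.ne_zero⟩ ζp pinv),
        @ModEqData.Phi L _ p ⟨hp.ne_zero⟩ ζp pinv dp = Ph p)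
    (τ : FL L (N * ℓ) →ₐ[FL L N] (EΩ L)) :
    ∃ i, (τ : FL L (N * ℓ) →+* EΩ L).comp (heckeBetaBar L N ℓ).toRingHom = substΩ N ℓ ζ i := by
  have hN0 : N ≠ 0 := NeZero.ne N
  have hℓ0 : ℓ ≠ 0 := NeZero.ne ℓ
  let z : ℕ → EΩ L := fun d => τ (heckeBetaBar L N ℓ (jGenZ L N d))
  have hd0 : ∀ d, d ∣ N → d ≠ 0 := fun d hd h0 => hN0 (by rw [h0] at hd; exact zero_dvd_iff.mp hd)
  have hR1 : ∀ d, d ∣ N → ev2 (ιΩ.comp (HahnSeries.C : L →+* LaurentSeries L)) dℓ.Phi (z d)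
      (ιΩ (Jz 1 (d * N * ℓ))) = 0 := by
    intro d hd
    have h := rel_modEq dℓ (heckeBetaBar L N ℓ (jGenZ L N d)) (heckeAlphaBar L N ℓ (jGenZ L N d))
      (hd0 d hd) (by rw [coe_beta_jGenZ N ℓ hd, mul_comm]) (coe_alpha_jGenZ N ℓ hd)
    have h2 := congrArg (τ : FL L (N * ℓ) →+* EΩ L) h
    rw [map_zero, map_ev2, tau_const hF hE τ] at h2
    have e : (τ : FL L (N * ℓ) →+* EΩ L) (heckeAlphaBar L N ℓ (jGenZ L N d)) =
        ιΩ (Jz 1 (d * N * ℓ)) := by
      have := tau_alpha hF hE τ (jGenZ L N d)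
      rw [coe_jGenZ N hd, qExpand_Jz _ 1 (hd0 d hd)] at this
      rw [show d * N * ℓ = N * ℓ * d by ring]
      exact this
    rw [e] at h2
    exact h2
  have hR2 : ∀ d p, p.Prime → d * p ∣ N →
      ev2 (ιΩ.comp (HahnSeries.C : L →+* LaurentSeries L)) (Ph p) (z (d * p)) (z d) = 0 := by
    intro d p hp hdp
    have hd : d ∣ N := dvd_trans (dvd_mul_right d p) hdp
    obtain ⟨ζp, pinv, dp, hdp'⟩ := hPh p hp (dvd_trans (dvd_mul_left p d) hdp)
    haveI : NeZero p := ⟨hp.ne_zero⟩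
    have h := rel_modEq dp (heckeBetaBar L N ℓ (jGenZ L N (d * p)))
      (heckeBetaBar L N ℓ (jGenZ L N d)) (n := ℓ * d) (mul_ne_zero hℓ0 (hd0 d hd))
      (by rw [coe_beta_jGenZ N ℓ hdp, mul_assoc]) (coe_beta_jGenZ N ℓ hd)
    have h2 := congrArg (τ : FL L (N * ℓ) →+* EΩ L) h
    rw [map_zero, map_ev2, tau_const hF hE τ, hdp'] at h2
    exact h2
  have hconst : ∀ (a : L) (i : Option (Fin ℓ)),
      ((τ : FL L (N * ℓ) →+* EΩ L).comp (heckeBetaBar L N ℓ).toRingHom) (algebraMap L (FL L N) a) =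
        substΩ N ℓ ζ i (algebraMap L (FL L N) a) := by
    intro a i
    have h1 : (heckeBetaBar L N ℓ).toRingHom (algebraMap L (FL L N) a) =
        algebraMap L (FL L (N * ℓ)) a := (heckeBetaBar L N ℓ).commutes a
    have h2 := congrArg (fun f : L →+* EΩ L => f a) (tau_const hF hE τ)
    rw [RingHom.comp_apply, h1, substΩ_algebraMap]
    exact h2
  rcases tower_classification ιΩ hℓ hℓN (dvd_refl N) hN0 hζ dℓ Ph hPh z hR1 hR2 with
    h | ⟨b, hb, h⟩
  · refine ⟨none, ringHom_ext_jGen N _ _ (fun a => hconst a none) ?_⟩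
    intro d _ hd
    rw [← jGenZ_eq (L := L) N hd, substΩ_none, coe_jGenZ N hd, qExpand_Jz _ 1 (hd0 d hd)]
    have := h d hd
    rw [show d * N * (ℓ * ℓ) = N * (ℓ * ℓ) * d by ring] at this
    exact this
  · refine ⟨some ⟨b, Finset.mem_range.mp hb⟩,
      ringHom_ext_jGen N _ _ (fun a => hconst a _) ?_⟩
    intro d _ hd
    rw [← jGenZ_eq (L := L) N hd, substΩ_some, coe_jGenZ N hd, subst_Jz _ N 1 (hd0 d hd), one_mul,
      mul_comm N d]
    exact h d hd

/-- Embeddings are determined by their restriction to `β F̄_N`. -/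
theorem tau_ext (hℓ : ℓ.Prime) (τ τ' : FL L (N * ℓ) →ₐ[FL L N] (EΩ L))
    (h : (τ : FL L (N * ℓ) →+* EΩ L).comp (heckeBetaBar L N ℓ).toRingHom =
      (τ' : FL L (N * ℓ) →+* EΩ L).comp (heckeBetaBar L N ℓ).toRingHom) : τ = τ' := by
  have hr : (τ : FL L (N * ℓ) →+* EΩ L) = (τ' : FL L (N * ℓ) →+* EΩ L) := by
    refine ringHom_ext_jGen (N * ℓ) _ _ ?_ ?_
    · intro a
      have h1 := congrArg (fun f : L →+* EΩ L => f a) (tau_const hF hE τ)
      have h2 := congrArg (fun f : L →+* EΩ L => f a) (tau_const hF hE τ')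
      exact h1.trans h2.symm
    · intro e _ he
      rcases jGen_mul_eq (L := L) N ℓ hℓ e he with ⟨d, hd, hed⟩ | ⟨d, hd, hed⟩
      · rw [hed]
        exact (tau_alpha hF hE τ _).trans (tau_alpha hF hE τ' _).symm
      · rw [hed]
        exact congrArg (fun f : FL L N →+* EΩ L => f (jGenZ L N d)) h
  exact AlgHom.coe_ringHom_injective hr

end Embeddings

/-- The norm `Nm_{F_{Nℓ}/α(F_N)}` over the field `L`. -/
def normAlphaGen (L : Type*) [Field L] [Algebra ℚ L] (N ℓ : ℕ) [NeZero N] [NeZero ℓ]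
    (z : FL L (N * ℓ)) : FL L N :=
  letI := algebraAlong (heckeAlphaBar L N ℓ)
  Algebra.norm (FL L N) z

theorem normAlphaGen_def (z : FL L (N * ℓ)) :
    normAlphaGen L N ℓ z =
      (letI := algebraAlong (heckeAlphaBar L N ℓ); Algebra.norm (FL L N) z) := rfl

instance charZero_FL (M : ℕ) : CharZero (FL L M) :=
  haveI : CharZero L := algebraRat.charZero L
  charZero_of_injective_algebraMap (algebraMap L (FL L M)).injective

/-- **(PF), hypothesis form on modular equation data, finiteness and the degree.** -/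
theorem productFormula_of_modEqData (hℓ : ℓ.Prime) (hℓN : ¬ ℓ ∣ N)
    {ζ : Lˣ} {ℓinv : L} (hζ : IsPrimitiveRoot ζ ℓ) (dℓ : ModEqData L ℓ ζ ℓinv)
    (Ph : ℕ → L[X][X])
    (hPh : ∀ p (hp : p.Prime), p ∣ N → ∃ (ζp : Lˣ) (pinv : L)
      (dp : @ModEqData L _ p ⟨hp.ne_zero⟩ ζp pinv),
        @ModEqData.Phi L _ p ⟨hp.ne_zero⟩ ζp pinv dp = Ph p)
    (hfin : FiniteAlong L (heckeAlphaBar L N ℓ))
    (hdeg : finrankAlong L (heckeAlphaBar L N ℓ) = ℓ + 1) (y : FL L N) :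
    qExpand L ℓ ((normAlphaGen L N ℓ (heckeBetaBar L N ℓ y) : FL L N) : LaurentSeries L) =
      qExpand L (ℓ * ℓ) (y : LaurentSeries L) *
        ∏ b ∈ Finset.range ℓ, scale (ζ ^ b) (y : LaurentSeries L) := by
  classical
  letI algF : Algebra (FL L N) (FL L (N * ℓ)) := algebraAlong (heckeAlphaBar L N ℓ)
  haveI : FiniteDimensional (FL L N) (FL L (N * ℓ)) := hfin
  haveI : Algebra.IsSeparable (FL L N) (FL L (N * ℓ)) :=
    isSeparable_along_of_charZero _ hfin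
  letI algE : Algebra (FL L N) (EΩ L) := (strΩ L N ℓ).toAlgebra
  have hF : algebraMap (FL L N) (FL L (N * ℓ)) = (heckeAlphaBar L N ℓ).toRingHom := rfl
  have hE : algebraMap (FL L N) (EΩ L) = strΩ L N ℓ := RingHom.algebraMap_toAlgebra _
  have hcard : Fintype.card (Option (Fin ℓ)) = Module.finrank (FL L N) (FL L (N * ℓ)) := by
    rw [Fintype.card_option, Fintype.card_fin]
    exact hdeg.symm
  have key := norm_eq_prod_of_labels (F := FL L N) (F' := FL L (N * ℓ)) (E := EΩ L) hcard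
    (heckeBetaBar L N ℓ).toRingHom (substΩ N ℓ ζ)
    (exists_label hF hE hℓ hℓN hζ dℓ Ph hPh) (tau_ext hF hE hℓ) y
  rw [prod_substΩ, hE, strΩ_apply, ← qExpand_qExpand N ℓ] at key
  have h1 := ιΩ_injective key
  have h2 : (Algebra.norm (FL L N) ((heckeBetaBar L N ℓ).toRingHom y) : FL L N) =
      normAlphaGen L N ℓ (heckeBetaBar L N ℓ y) := rfl
  rw [h2] at h1
  exact subst_injective (1 : Lˣ) N (by rw [subst_one_unit, subst_one_unit]; exact h1)

/-- Modular equation data over `L` for every prime. -/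
def HasModEqData (L : Type*) [Field L] : Prop :=
  ∀ (p : ℕ) (hp : p.Prime), ∃ (ζ : Lˣ) (pinv : L), IsPrimitiveRoot ζ p ∧
    Nonempty (@ModEqData L _ p ⟨hp.ne_zero⟩ ζ pinv)

/-- **(PF) over a general field**, hypothesis form on modular equation data, finiteness of `α`
and the degree of `α`. -/
theorem productFormula (hℓ : ℓ.Prime) (hℓN : ¬ ℓ ∣ N) (hME : HasModEqData L)
    (hfin : FiniteAlong L (heckeAlphaBar L N ℓ))
    (hdeg : finrankAlong L (heckeAlphaBar L N ℓ) = ℓ + 1)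
    {ζ : Lˣ} (hζ : IsPrimitiveRoot ζ ℓ) (y : FL L N) :
    qExpand L ℓ ((normAlphaGen L N ℓ (heckeBetaBar L N ℓ y) : FL L N) : LaurentSeries L) =
      qExpand L (ℓ * ℓ) (y : LaurentSeries L) *
        ∏ b ∈ Finset.range ℓ, scale (ζ ^ b) (y : LaurentSeries L) := by
  obtain ⟨ζ0, ℓinv, hζ0, ⟨dℓ⟩⟩ := hME ℓ hℓ
  have hex : ∀ p : ℕ, ∃ Φ : L[X][X], ∀ hp : p.Prime, ∃ (ζp : Lˣ) (pinv : L)
      (dp : @ModEqData L _ p ⟨hp.ne_zero⟩ ζp pinv),
        @ModEqData.Phi L _ p ⟨hp.ne_zero⟩ ζp pinv dp = Φ := by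
    intro p
    by_cases hp : p.Prime
    · obtain ⟨ζp, pinv, _, ⟨dp⟩⟩ := hME p hp
      exact ⟨@ModEqData.Phi L _ p ⟨hp.ne_zero⟩ ζp pinv dp, fun _ => ⟨ζp, pinv, dp, rfl⟩⟩
    · exact ⟨0, fun h => absurd h hp⟩
  choose Ph hPh using hex
  have key := productFormula_of_modEqData hℓ hℓN hζ0 dℓ Ph (fun p hp _ => hPh p hp) hfin hdeg y
  rw [key, prod_pow_primitiveRoot_eq hζ0 hζ (fun u => scale u (y : LaurentSeries L))]

end Main

end Fermat.Agent.ES.Gen
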